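import Mathlib

/-!
# The tent function and its partition of unity over `ℤ`

`tent t = max 0 (1 - |t|)`.  We prove `∑ k : ℤ, tent (t + k) = 1`, that `tent` is
`1`-Lipschitz with values in `[0,1]`, and the multi-dimensional product version.
-/

namespace Fermat.Agent.S14.N1H150

noncomputable section

/-- The tent function `t ↦ max 0 (1 - |t|)`. -/
def tent (t : ℝ) : ℝ := max 0 (1 - |t|)

lemma tent_nonneg (t : ℝ) : 0 ≤ tent t := le_max_left _ _

lemma tent_le_one (t : ℝ) : tent t ≤ 1 := by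
  unfold tent
  exact max_le zero_le_one (by linarith [abs_nonneg t])

lemma tent_eq_zero_of_one_le_abs {t : ℝ} (h : 1 ≤ |t|) : tent t = 0 := by
  unfold tent
  exact max_eq_left (by linarith)

lemma tent_eq_of_abs_le_one {t : ℝ} (h : |t| ≤ 1) : tent t = 1 - |t| := by
  unfold tent
  exact max_eq_right (by linarith)

lemma abs_lt_one_of_tent_ne_zero {t : ℝ} (h : tent t ≠ 0) : |t| < 1 := by
  by_contra h'
  exact h (tent_eq_zero_of_one_le_abs (not_lt.mp h'))

lemma tent_sub_le (a b : ℝ) : |tent a - tent b| ≤ |a - b| := by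
  unfold tent
  have h1 : |max 0 (1 - |a|) - max 0 (1 - |b|)| ≤ |(1 - |a|) - (1 - |b|)| := by
    have := abs_max_sub_max_le_abs (1 - |a|) (1 - |b|) 0
    rwa [max_comm (1 - |a|) 0, max_comm (1 - |b|) 0] at this
  refine h1.trans ?_
  have : (1 - |a|) - (1 - |b|) = |b| - |a| := by ring
  rw [this]
  have := abs_abs_sub_abs_le_abs_sub b a
  rwa [abs_sub_comm b a] at this

/-- Partition of unity: `∑_{k ∈ ℤ} tent (t + k) = 1`, in `HasSum` form. -/
lemma hasSum_tent (t : ℝ) : HasSum (fun k : ℤ ↦ tent (t + k)) 1 := by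
  -- the only possibly nonzero terms are `k = -⌊t⌋` and `k = -⌊t⌋ - 1`
  set m : ℤ := ⌊t⌋ with hm
  have hfl : (m : ℝ) ≤ t := Int.floor_le t
  have hlt : t < m + 1 := Int.lt_floor_add_one t
  have hsupp : ∀ k ∉ ({-m, -m - 1} : Finset ℤ), tent (t + k) = 0 := by
    intro k hk
    simp only [Finset.mem_insert, Finset.mem_singleton, not_or] at hk
    apply tent_eq_zero_of_one_le_abs
    rcases lt_or_gt_of_ne hk.1 with h | h
    · -- k < -m, and k ≠ -m-1, so k ≤ -m-2
      have hk2 : k ≤ -m - 2 := by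
        have : k < -m - 1 := lt_of_le_of_ne (by omega) hk.2
        omega
      have : (k : ℝ) ≤ -m - 2 := by exact_mod_cast hk2
      rw [le_abs]
      right
      linarith
    · have hk2 : -m + 1 ≤ k := by omega
      have : (-m + 1 : ℝ) ≤ k := by exact_mod_cast hk2
      rw [le_abs]
      left
      linarith
  have hsum : HasSum (fun k : ℤ ↦ tent (t + k))
      (∑ k ∈ ({-m, -m - 1} : Finset ℤ), tent (t + k)) :=
    hasSum_sum_of_ne_finset_zero hsupp
  convert hsum using 1
  have hne : (-m : ℤ) ≠ -m - 1 := by omega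
  rw [Finset.sum_pair hne]
  have h1 : tent (t + ((-m : ℤ) : ℝ)) = 1 - (t - m) := by
    rw [tent_eq_of_abs_le_one]
    · push_cast
      rw [abs_of_nonneg (by linarith)]
      ring
    · push_cast
      rw [abs_le]
      constructor <;> linarith
  have h2 : tent (t + ((-m - 1 : ℤ) : ℝ)) = t - m := by
    rw [tent_eq_of_abs_le_one]
    · push_cast
      rw [abs_of_nonpos (by linarith)]
      ring
    · push_cast
      rw [abs_le]
      constructor <;> linarith
  rw [h1, h2]
  ring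

lemma tsum_tent (t : ℝ) : ∑' k : ℤ, tent (t + k) = 1 := (hasSum_tent t).tsum_eq

end

end Fermat.Agent.S14.N1H150

namespace Fermat.Agent.S14.N1H150

noncomputable section

open Finset

/-- The product of tent functions of the coordinates. -/
def tentProd {ι : Type*} [Fintype ι] (t : ι → ℝ) : ℝ := ∏ j, tent (t j)

lemma tentProd_nonneg {ι : Type*} [Fintype ι] (t : ι → ℝ) : 0 ≤ tentProd t :=
  Finset.prod_nonneg fun _ _ ↦ tent_nonneg _

lemma tentProd_le_one {ι : Type*} [Fintype ι] (t : ι → ℝ) : tentProd t ≤ 1 :=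
  Finset.prod_le_one (fun _ _ ↦ tent_nonneg _) (fun _ _ ↦ tent_le_one _)

lemma abs_lt_one_of_tentProd_ne_zero {ι : Type*} [Fintype ι] {t : ι → ℝ}
    (h : tentProd t ≠ 0) (j : ι) : |t j| < 1 := by
  apply abs_lt_one_of_tent_ne_zero
  intro h0
  exact h (Finset.prod_eq_zero (Finset.mem_univ j) h0)

/-- The finite set supporting `k ↦ tent (t + k)`. -/
def tentSupp (t : ℝ) : Finset ℤ := {-⌊t⌋, -⌊t⌋ - 1}

lemma tent_eq_zero_of_not_mem_tentSupp {t : ℝ} {k : ℤ} (hk : k ∉ tentSupp t) :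
    tent (t + k) = 0 := by
  set m : ℤ := ⌊t⌋ with hm
  have hfl : (m : ℝ) ≤ t := Int.floor_le t
  have hlt : t < m + 1 := Int.lt_floor_add_one t
  simp only [tentSupp, Finset.mem_insert, Finset.mem_singleton, not_or] at hk
  apply tent_eq_zero_of_one_le_abs
  rcases lt_or_gt_of_ne hk.1 with h | h
  · have hk2 : k ≤ -m - 2 := by
      have : k < -m - 1 := lt_of_le_of_ne (by omega) hk.2
      omega
    have : (k : ℝ) ≤ -m - 2 := by exact_mod_cast hk2
    rw [le_abs]
    right
    linarith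
  · have hk2 : -m + 1 ≤ k := by omega
    have : (-m + 1 : ℝ) ≤ k := by exact_mod_cast hk2
    rw [le_abs]
    left
    linarith

lemma sum_tentSupp (t : ℝ) : ∑ k ∈ tentSupp t, tent (t + k) = 1 := by
  have h := hasSum_tent t
  have h2 : HasSum (fun k : ℤ ↦ tent (t + k)) (∑ k ∈ tentSupp t, tent (t + k)) :=
    hasSum_sum_of_ne_finset_zero fun k hk ↦ tent_eq_zero_of_not_mem_tentSupp hk
  exact h2.unique h

/-- Partition of unity in several variables. -/
lemma hasSum_tentProd {ι : Type*} [Fintype ι] [DecidableEq ι] (t : ι → ℝ) :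
    HasSum (fun e : ι → ℤ ↦ tentProd (fun j ↦ t j + e j)) 1 := by
  have hsupp : ∀ e ∉ Fintype.piFinset (fun j ↦ tentSupp (t j)),
      tentProd (fun j ↦ t j + e j) = 0 := by
    intro e he
    rw [Fintype.mem_piFinset, not_forall] at he
    obtain ⟨j, hj⟩ := he
    exact Finset.prod_eq_zero (Finset.mem_univ j) (tent_eq_zero_of_not_mem_tentSupp hj)
  have h2 : HasSum (fun e : ι → ℤ ↦ tentProd (fun j ↦ t j + e j))
      (∑ e ∈ Fintype.piFinset (fun j ↦ tentSupp (t j)), tentProd (fun j ↦ t j + e j)) :=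
    hasSum_sum_of_ne_finset_zero hsupp
  convert h2 using 1
  have h3 := Finset.prod_univ_sum (fun j ↦ tentSupp (t j)) (fun j (k : ℤ) ↦ tent (t j + k))
  unfold tentProd
  rw [← h3]
  simp [sum_tentSupp]

/-- `|∏ a - ∏ b| ≤ ∑ |a - b|` for families with values in `[0,1]`. -/
lemma abs_prod_sub_prod_le {ι : Type*} (s : Finset ι) (a b : ι → ℝ)
    (ha : ∀ j ∈ s, 0 ≤ a j ∧ a j ≤ 1) (hb : ∀ j ∈ s, 0 ≤ b j ∧ b j ≤ 1) :
    |∏ j ∈ s, a j - ∏ j ∈ s, b j| ≤ ∑ j ∈ s, |a j - b j| := by
  classical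
  induction s using Finset.induction_on with
  | empty => simp
  | insert i s hi ih =>
    rw [Finset.prod_insert hi, Finset.prod_insert hi, Finset.sum_insert hi]
    have hai := ha i (Finset.mem_insert_self i s)
    have hbi := hb i (Finset.mem_insert_self i s)
    have has : ∀ j ∈ s, 0 ≤ a j ∧ a j ≤ 1 := fun j hj ↦ ha j (Finset.mem_insert_of_mem hj)
    have hbs : ∀ j ∈ s, 0 ≤ b j ∧ b j ≤ 1 := fun j hj ↦ hb j (Finset.mem_insert_of_mem hj)
    have ih' := ih has hbs
    have hA0 : 0 ≤ ∏ j ∈ s, a j := Finset.prod_nonneg fun j hj ↦ (has j hj).1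
    have hA1 : ∏ j ∈ s, a j ≤ 1 := Finset.prod_le_one (fun j hj ↦ (has j hj).1)
      (fun j hj ↦ (has j hj).2)
    have key : a i * ∏ j ∈ s, a j - b i * ∏ j ∈ s, b j =
        (a i - b i) * ∏ j ∈ s, a j + b i * (∏ j ∈ s, a j - ∏ j ∈ s, b j) := by ring
    rw [key]
    refine (abs_add_le _ _).trans ?_
    rw [abs_mul, abs_mul]
    have h1 : |a i - b i| * |∏ j ∈ s, a j| ≤ |a i - b i| := by
      rw [abs_of_nonneg hA0]
      exact mul_le_of_le_one_right (abs_nonneg _) hA1
    have h2 : |b i| * |∏ j ∈ s, a j - ∏ j ∈ s, b j| ≤ ∑ j ∈ s, |a j - b j| := by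
      rw [abs_of_nonneg hbi.1]
      exact (mul_le_of_le_one_left (abs_nonneg _) hbi.2).trans ih'
    linarith

lemma abs_tentProd_sub_le {ι : Type*} [Fintype ι] (t t' : ι → ℝ) :
    |tentProd t - tentProd t'| ≤ ∑ j, |t j - t' j| := by
  unfold tentProd
  refine (abs_prod_sub_prod_le _ _ _ (fun j _ ↦ ⟨tent_nonneg _, tent_le_one _⟩)
    (fun j _ ↦ ⟨tent_nonneg _, tent_le_one _⟩)).trans ?_
  exact Finset.sum_le_sum fun j _ ↦ tent_sub_le _ _

end

end Fermat.Agent.S14.N1H150
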