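import Mathlib
import Fermat.Agent.S14.N1H150.Tent

/-!
# The smoothed unit-cutoff `Phi` on a number field

For a number field `K` we define `Phi : K → ℝ`, a product of tent functions of the
coordinates of `logMap (mixedEmbedding K a)` in the basis of the unit lattice.
Main property: `∑ u : (𝓞 K)ˣ, Phi (u * a) = torsionOrder K` for `a ≠ 0`.
-/

namespace Fermat.Agent.S14.N1H150

noncomputable section

open NumberField NumberField.InfinitePlace NumberField.Units NumberField.mixedEmbedding
  NumberField.Units.dirichletUnitTheorem Module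

variable (K : Type*) [Field K] [NumberField K]

open scoped Classical

/-- The real basis of `logSpace K` coming from a basis of the unit lattice. -/
def logBasis : Basis (Fin (rank K)) ℝ (logSpace K) :=
  (basisUnitLattice K).ofZLatticeBasis ℝ (unitLattice K)

/-- The coordinates of `logMap (mixedEmbedding K a)` in `logBasis`. -/
def tcoord (a : K) : Fin (rank K) → ℝ :=
  fun j ↦ (logBasis K).repr (logMap (mixedEmbedding K a)) j

/-- The smoothed cutoff function. -/
def Phi (a : K) : ℝ := tentProd (tcoord K a)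

lemma Phi_nonneg (a : K) : 0 ≤ Phi K a := tentProd_nonneg _

lemma Phi_le_one (a : K) : Phi K a ≤ 1 := tentProd_le_one _

/-- The parametrisation of the units by torsion and exponents. -/
def unitEquiv : torsion K × (Fin (rank K) → ℤ) ≃ (𝓞 K)ˣ :=
  Equiv.ofBijective (fun ζe ↦ (ζe.1 : (𝓞 K)ˣ) * ∏ i, fundSystem K i ^ ζe.2 i) <| by
    rw [Function.bijective_iff_existsUnique]
    intro x
    obtain ⟨ζe, h1, h2⟩ := exist_unique_eq_mul_prod K x
    exact ⟨ζe, h1.symm, fun y hy ↦ h2 y hy.symm⟩

lemma unitEquiv_apply (ζe : torsion K × (Fin (rank K) → ℤ)) :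
    unitEquiv K ζe = (ζe.1 : (𝓞 K)ˣ) * ∏ i, fundSystem K i ^ ζe.2 i := rfl

lemma logEmbedding_unitEquiv (ζe : torsion K × (Fin (rank K) → ℤ)) :
    logEmbedding K (Additive.ofMul (unitEquiv K ζe)) =
      ∑ i, (ζe.2 i : ℝ) • (logBasis K i) := by
  rw [unitEquiv_apply, ofMul_mul, map_add, ofMul_prod, map_sum]
  have h1 : logEmbedding K (Additive.ofMul (ζe.1 : (𝓞 K)ˣ)) = 0 := by
    rw [logEmbedding_eq_zero_iff]
    exact ζe.1.2
  rw [h1, zero_add]
  refine Finset.sum_congr rfl fun i _ ↦ ?_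
  rw [ofMul_zpow, map_zsmul, logEmbedding_fundSystem, logBasis, Basis.ofZLatticeBasis_apply]
  exact (Int.cast_smul_eq_zsmul ℝ _ _).symm

lemma tcoord_unit_mul (ζe : torsion K × (Fin (rank K) → ℤ)) {a : K} (ha : a ≠ 0)
    (j : Fin (rank K)) :
    tcoord K (((unitEquiv K ζe : (𝓞 K)ˣ) : 𝓞 K) * a) j = tcoord K a j + ζe.2 j := by
  have hnorm : mixedEmbedding.norm (mixedEmbedding K a) ≠ 0 := by
    rw [norm_eq_norm]
    simpa using ha
  have h : mixedEmbedding K ((((unitEquiv K ζe : (𝓞 K)ˣ) : 𝓞 K) : K) * a) =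
      (unitEquiv K ζe) • mixedEmbedding K a := by
    rw [unitSMul_smul, map_mul]
  unfold tcoord
  rw [h, logMap_unit_smul _ hnorm, logEmbedding_unitEquiv, map_add, map_sum]
  simp only [map_smul, Basis.repr_self, Finsupp.coe_add, Finsupp.coe_finsetSum, Pi.add_apply,
    Finset.sum_apply, Finsupp.coe_smul, Pi.smul_apply, smul_eq_mul]
  rw [add_comm]
  congr 1
  rw [Finset.sum_eq_single j]
  · simp
  · intro i _ hij
    simp [Finsupp.single_eq_of_ne hij.symm]
  · simp

/-- The sum of `Phi` over a unit orbit is the number of roots of unity. -/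
theorem hasSum_Phi_unit_mul {a : K} (ha : a ≠ 0) :
    HasSum (fun u : (𝓞 K)ˣ ↦ Phi K (((u : 𝓞 K) : K) * a)) (torsionOrder K) := by
  rw [← (unitEquiv K).hasSum_iff]
  have hfun : ((fun u : (𝓞 K)ˣ ↦ Phi K (((u : 𝓞 K) : K) * a)) ∘ (unitEquiv K)) =
      fun ζe : torsion K × (Fin (rank K) → ℤ) ↦ tentProd (fun j ↦ tcoord K a j + ζe.2 j) := by
    funext ζe
    simp only [Function.comp_apply, Phi]
    congr 1
    funext j
    exact tcoord_unit_mul K ζe ha j
  rw [hfun]
  let _ : Fintype (torsion K) := Fintype.ofFinite _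
  set P : Finset (Fin (rank K) → ℤ) := Fintype.piFinset (fun j ↦ tentSupp (tcoord K a j)) with hP
  have hsupp : ∀ ζe ∉ (Finset.univ : Finset (torsion K)) ×ˢ P,
      tentProd (fun j ↦ tcoord K a j + ζe.2 j) = 0 := by
    intro ζe hζe
    rw [Finset.mem_product, not_and] at hζe
    have := hζe (Finset.mem_univ _)
    rw [hP, Fintype.mem_piFinset, not_forall] at this
    obtain ⟨j, hj⟩ := this
    exact Finset.prod_eq_zero (Finset.mem_univ j) (tent_eq_zero_of_not_mem_tentSupp hj)
  have h2 : HasSum (fun ζe : torsion K × (Fin (rank K) → ℤ) ↦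
      tentProd (fun j ↦ tcoord K a j + ζe.2 j))
      (∑ ζe ∈ (Finset.univ : Finset (torsion K)) ×ˢ P,
        tentProd (fun j ↦ tcoord K a j + ζe.2 j)) :=
    hasSum_sum_of_ne_finset_zero hsupp
  convert h2 using 1
  rw [Finset.sum_product]
  have h3 : ∑ e ∈ P, tentProd (fun j ↦ tcoord K a j + e j) = 1 := by
    have h4 : HasSum (fun e : Fin (rank K) → ℤ ↦ tentProd (fun j ↦ tcoord K a j + e j))
        (∑ e ∈ P, tentProd (fun j ↦ tcoord K a j + e j)) := by
      refine hasSum_sum_of_ne_finset_zero fun e he ↦ ?_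
      rw [hP, Fintype.mem_piFinset, not_forall] at he
      obtain ⟨j, hj⟩ := he
      exact Finset.prod_eq_zero (Finset.mem_univ j) (tent_eq_zero_of_not_mem_tentSupp hj)
    exact h4.unique (hasSum_tentProd _)
  simp only [h3, Finset.sum_const, Finset.card_univ, nsmul_eq_mul, mul_one]
  rw [torsionOrder, Nat.card_eq_fintype_card]

end

end Fermat.Agent.S14.N1H150
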