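import Mathlib
import Fermat.Agent.S14.N1H150.Phi

/-!
# Analytic estimates for the smoothed cutoff

* comparability of all `w a` on the support of `Phi`;
* Lipschitz estimate for `fS s a = Phi a * |N a| ^ (-s)` under translation.
-/

namespace Fermat.Agent.S14.N1H150

noncomputable section

open NumberField NumberField.InfinitePlace NumberField.Units NumberField.mixedEmbedding
  NumberField.Units.dirichletUnitTheorem Module

open scoped Classical

/-! ### Real lemmas -/

lemma abs_log_sub_log_le {x y : ℝ} (hx : 0 < x) (hy : 0 < y) (h : |x - y| ≤ y / 2) :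
    |Real.log x - Real.log y| ≤ 2 * |x - y| / y := by
  have hxy : y / 2 ≤ x := by
    have := (abs_le.mp h).1
    linarith
  have h1 : Real.log x - Real.log y = Real.log (x / y) := (Real.log_div hx.ne' hy.ne').symm
  rw [h1, abs_le]
  have hpos : 0 < x / y := div_pos hx hy
  constructor
  · -- lower bound: log (x/y) ≥ 1 - y/x
    have h2 := Real.one_sub_inv_le_log_of_pos hpos
    rw [inv_div] at h2
    have h3 : -(2 * |x - y| / y) ≤ 1 - y / x := by
      have hx' : 1 - y / x = (x - y) / x := by field_simp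
      rw [hx']
      have h4 : -|x - y| ≤ x - y := neg_abs_le _
      have h5 : -(|x - y| / x) ≤ (x - y) / x := by
        rw [← neg_div]
        exact div_le_div_of_nonneg_right h4 hx.le
      have h6 : |x - y| / x ≤ 2 * |x - y| / y := by
        rw [div_le_div_iff₀ hx hy]
        have := abs_nonneg (x - y)
        nlinarith
      linarith
    linarith
  · have h2 := Real.log_le_sub_one_of_pos hpos
    have h3 : x / y - 1 = (x - y) / y := by field_simp
    have h4 : (x - y) / y ≤ 2 * |x - y| / y := by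
      apply div_le_div_of_nonneg_right _ hy.le
      have := le_abs_self (x - y)
      have := abs_nonneg (x - y)
      linarith
    linarith

/-! ### Norms -/

variable (K : Type*) [Field K] [NumberField K]

/-- The sup norm of the image in the mixed space. -/
def nrm (a : K) : ℝ := ‖mixedEmbedding K a‖

/-- The absolute value of the norm. -/
def absN (a : K) : ℝ := mixedEmbedding.norm (mixedEmbedding K a)

/-- The smoothed summand. -/
def fS (s : ℝ) (a : K) : ℝ := Phi K a * (absN K a) ^ (-s)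

variable {K}

lemma nrm_nonneg (a : K) : 0 ≤ nrm K a := norm_nonneg _

lemma place_le_nrm (w : InfinitePlace K) (a : K) : w a ≤ nrm K a := by
  unfold nrm
  rw [norm_eq_sup'_normAtPlace]
  have := Finset.le_sup' (fun w ↦ normAtPlace w (mixedEmbedding K a)) (Finset.mem_univ w)
  simpa using this

lemma exists_place_eq_nrm (a : K) : ∃ w : InfinitePlace K, w a = nrm K a := by
  unfold nrm
  rw [norm_eq_sup'_normAtPlace]
  obtain ⟨w, -, hw⟩ := Finset.exists_mem_eq_sup' Finset.univ_nonempty
    (fun w ↦ normAtPlace w (mixedEmbedding K a))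
  exact ⟨w, by rw [hw]; simp⟩

lemma nrm_add_le (a b : K) : nrm K (a + b) ≤ nrm K a + nrm K b := by
  unfold nrm
  rw [map_add]
  exact norm_add_le _ _

lemma nrm_neg (a : K) : nrm K (-a) = nrm K a := by
  unfold nrm
  rw [map_neg, norm_neg]

lemma nrm_eq_zero_iff {a : K} : nrm K a = 0 ↔ a = 0 := by
  unfold nrm
  rw [norm_eq_zero, map_eq_zero]

lemma absN_eq_prod (a : K) : absN K a = ∏ w : InfinitePlace K, w a ^ mult w := by
  unfold absN
  rw [mixedEmbedding.norm_apply]
  simp

lemma absN_nonneg (a : K) : 0 ≤ absN K a := mixedEmbedding.norm_nonneg _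

lemma absN_pos {a : K} (ha : a ≠ 0) : 0 < absN K a := by
  rw [absN_eq_prod]
  exact Finset.prod_pos fun w _ ↦ pow_pos (pos_iff.mpr ha) _

lemma absN_zero : absN K (0 : K) = 0 := by
  unfold absN
  simp

lemma log_absN {a : K} (ha : a ≠ 0) :
    Real.log (absN K a) = ∑ w : InfinitePlace K, (mult w : ℝ) * Real.log (w a) := by
  rw [absN_eq_prod, Real.log_prod]
  · refine Finset.sum_congr rfl fun w _ ↦ ?_
    rw [Real.log_pow]
  · intro w _
    exact (pow_pos (pos_iff.mpr ha) _).ne'

lemma fS_nonneg (s : ℝ) (a : K) : 0 ≤ fS K s a :=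
  mul_nonneg (Phi_nonneg K a) (Real.rpow_nonneg (absN_nonneg a) _)

lemma fS_zero {s : ℝ} (hs : s ≠ 0) : fS K s (0 : K) = 0 := by
  unfold fS
  rw [absN_zero, Real.zero_rpow (neg_ne_zero.mpr hs), mul_zero]

lemma mult_le_two' (w : InfinitePlace K) : (mult w : ℝ) ≤ 2 := by
  unfold mult
  split_ifs <;> norm_num

lemma one_le_mult' (w : InfinitePlace K) : (1 : ℝ) ≤ mult w := by
  exact_mod_cast one_le_mult

lemma logMap_apply_place {a : K} (w : {w : InfinitePlace K // w ≠ w₀}) :
    logMap (mixedEmbedding K a) w =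
      mult w.1 * (Real.log (w.1 a) - Real.log (absN K a) * (finrank ℚ K : ℝ)⁻¹) := by
  rw [logMap_apply, normAtPlace_apply]
  rfl

/-- The continuous linear equivalence given by the coordinates in `logBasis`. -/
def coordCLE : logSpace K ≃L[ℝ] (Fin (rank K) → ℝ) :=
  (logBasis K).equivFun.toContinuousLinearEquiv

lemma coordCLE_apply (a : K) : coordCLE (logMap (mixedEmbedding K a)) = tcoord K a := by
  funext j
  rfl

variable (K) in
/-- The constant bounding `logMap` on the support of `Phi`. -/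
def M₀ : ℝ := ‖((coordCLE (K := K)).symm : (Fin (rank K) → ℝ) →L[ℝ] logSpace K)‖

lemma M₀_nonneg : 0 ≤ M₀ K := norm_nonneg _

lemma norm_logMap_le_of_Phi_ne_zero {a : K} (h : Phi K a ≠ 0) :
    ‖logMap (mixedEmbedding K a)‖ ≤ M₀ K := by
  have h1 : ‖tcoord K a‖ ≤ 1 := by
    rw [pi_norm_le_iff_of_nonneg zero_le_one]
    intro j
    rw [Real.norm_eq_abs]
    exact (abs_lt_one_of_tentProd_ne_zero h j).le
  have h2 : logMap (mixedEmbedding K a) = (coordCLE (K := K)).symm (tcoord K a) := by
    rw [← coordCLE_apply, ContinuousLinearEquiv.symm_apply_apply]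
  rw [h2]
  have h3 := ContinuousLinearMap.le_opNorm
    ((coordCLE (K := K)).symm : (Fin (rank K) → ℝ) →L[ℝ] logSpace K) (tcoord K a)
  have h4 : ‖((coordCLE (K := K)).symm : (Fin (rank K) → ℝ) →L[ℝ] logSpace K)‖ * ‖tcoord K a‖
      ≤ M₀ K * 1 := by
    unfold M₀
    exact mul_le_mul_of_nonneg_left h1 (norm_nonneg _)
  rw [mul_one] at h4
  exact h3.trans h4

variable (K) in
/-- The bound for `|log (w a) - (log |N a|)/n|` on the support of `Phi`. -/
def M₁ : ℝ := (Fintype.card (InfinitePlace K) : ℝ) * M₀ K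

lemma M₁_nonneg : 0 ≤ M₁ K := mul_nonneg (Nat.cast_nonneg _) M₀_nonneg

lemma M₀_le_M₁ : M₀ K ≤ M₁ K := by
  unfold M₁
  have : (1 : ℝ) ≤ Fintype.card (InfinitePlace K) := by
    exact_mod_cast Fintype.card_pos
  nlinarith [M₀_nonneg (K := K)]

lemma sum_mult_mul_log_sub {a : K} (ha : a ≠ 0) :
    ∑ w : InfinitePlace K, (mult w : ℝ) *
      (Real.log (w a) - Real.log (absN K a) * (finrank ℚ K : ℝ)⁻¹) = 0 := by
  simp_rw [mul_sub]
  rw [Finset.sum_sub_distrib, ← log_absN ha]
  simp_rw [← mul_assoc]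
  rw [← Finset.sum_mul, ← Finset.sum_mul, ← Nat.cast_sum, sum_mult_eq]
  have : (finrank ℚ K : ℝ) ≠ 0 := Nat.cast_ne_zero.mpr finrank_pos.ne'
  field_simp
  ring

lemma abs_log_place_sub_le {a : K} (ha : a ≠ 0) (h : Phi K a ≠ 0) (w : InfinitePlace K) :
    |Real.log (w a) - Real.log (absN K a) * (finrank ℚ K : ℝ)⁻¹| ≤ M₁ K := by
  have hM := norm_logMap_le_of_Phi_ne_zero h
  have hcomp : ∀ w' : {w : InfinitePlace K // w ≠ w₀},
      |(mult w'.1 : ℝ) * (Real.log (w'.1 a) - Real.log (absN K a) * (finrank ℚ K : ℝ)⁻¹)|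
        ≤ M₀ K := by
    intro w'
    rw [← logMap_apply_place, ← Real.norm_eq_abs]
    exact (norm_le_pi_norm _ w').trans hM
  set L := Real.log (absN K a) * (finrank ℚ K : ℝ)⁻¹ with hL
  by_cases hw : w = w₀
  · -- the distinguished place
    have hsum := sum_mult_mul_log_sub ha
    rw [← hL] at hsum
    rw [Fintype.sum_eq_add_sum_subtype_ne _ (w₀ : InfinitePlace K)] at hsum
    have h3 : (mult w : ℝ) * (Real.log (w a) - L) =
        - ∑ i : {w : InfinitePlace K // w ≠ w₀}, (mult i.1 : ℝ) * (Real.log (i.1 a) - L) := by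
      rw [hw]
      linarith
    have h4 : |(mult w : ℝ) * (Real.log (w a) - L)| ≤ M₁ K := by
      rw [h3, abs_neg]
      refine (Finset.abs_sum_le_sum_abs _ _).trans ?_
      refine (Finset.sum_le_card_nsmul _ _ (M₀ K) fun i _ ↦ hcomp i).trans ?_
      rw [nsmul_eq_mul, Finset.card_univ]
      unfold M₁
      exact mul_le_mul_of_nonneg_right (by exact_mod_cast Fintype.card_subtype_le _) M₀_nonneg
    rw [abs_mul, abs_of_nonneg (Nat.cast_nonneg _)] at h4
    have h5 := one_le_mult' w
    have h6 := abs_nonneg (Real.log (w a) - L)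
    nlinarith
  · have h4 := hcomp ⟨w, hw⟩
    simp only at h4
    rw [abs_mul, abs_of_nonneg (Nat.cast_nonneg _)] at h4
    have h5 := one_le_mult' w
    have h6 := abs_nonneg (Real.log (w a) - L)
    have h7 := M₀_le_M₁ (K := K)
    nlinarith

variable (K) in
/-- The comparability constant on the support of `Phi`. -/
def kap : ℝ := Real.exp (-(2 * M₁ K))

lemma kap_pos : 0 < kap K := Real.exp_pos _

lemma kap_le_one : kap K ≤ 1 := by
  unfold kap
  rw [Real.exp_le_one_iff]
  linarith [M₁_nonneg (K := K)]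

/-- On the support of `Phi` all the absolute values `w a` are comparable to `nrm a`. -/
theorem kap_mul_nrm_le {a : K} (ha : a ≠ 0) (h : Phi K a ≠ 0) (w : InfinitePlace K) :
    kap K * nrm K a ≤ w a := by
  obtain ⟨w', hw'⟩ := exists_place_eq_nrm a
  rw [← hw']
  have h1 := abs_log_place_sub_le ha h w
  have h2 := abs_log_place_sub_le ha h w'
  have hwpos : 0 < w a := pos_iff.mpr ha
  have hw'pos : 0 < w' a := pos_iff.mpr ha
  have h3 : Real.log (w' a) - 2 * M₁ K ≤ Real.log (w a) := by
    have := (abs_le.mp h1).1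
    have := (abs_le.mp h2).2
    linarith
  have h4 : Real.exp (Real.log (w' a) - 2 * M₁ K) ≤ Real.exp (Real.log (w a)) :=
    Real.exp_le_exp.mpr h3
  rw [Real.exp_log hwpos, sub_eq_add_neg, Real.exp_add, Real.exp_log hw'pos] at h4
  unfold kap
  rw [mul_comm]
  convert h4 using 2

lemma kap_mul_nrm_pow_le_absN {a : K} (ha : a ≠ 0) (h : Phi K a ≠ 0) :
    (kap K * nrm K a) ^ (finrank ℚ K) ≤ absN K a := by
  rw [absN_eq_prod, ← sum_mult_eq, ← Finset.prod_pow_eq_pow_sum]
  refine Finset.prod_le_prod (fun w _ ↦ pow_nonneg (mul_nonneg kap_pos.le (nrm_nonneg a)) _)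
    fun w _ ↦ ?_
  exact pow_le_pow_left₀ (mul_nonneg kap_pos.le (nrm_nonneg a)) (kap_mul_nrm_le ha h w) _

end

end Fermat.Agent.S14.N1H150
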