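import Mathlib
import Fermat.Agent.S14.N1H150.Estimates

/-!
# Lipschitz estimate for `fS` under translation
-/

namespace Fermat.Agent.S14.N1H150

noncomputable section

open NumberField NumberField.InfinitePlace NumberField.Units NumberField.mixedEmbedding
  NumberField.Units.dirichletUnitTheorem Module

open scoped Classical

variable {K : Type*} [Field K] [NumberField K]

lemma finrank_pos_real : (0 : ℝ) < (finrank ℚ K : ℝ) := Nat.cast_pos.mpr finrank_pos

lemma one_le_finrank_real : (1 : ℝ) ≤ (finrank ℚ K : ℝ) := by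
  exact_mod_cast (finrank_pos : 0 < finrank ℚ K)

section close

variable {y z : K} {ρ : ℝ}

lemma abs_log_place_sub_le_of_close (hy : y ≠ 0) (hz : z ≠ 0) (hρ : ρ ≤ 1 / 2)
    (h : ∀ w : InfinitePlace K, |w z - w y| ≤ ρ * w y) (w : InfinitePlace K) :
    |Real.log (w z) - Real.log (w y)| ≤ 2 * ρ := by
  have hwy : 0 < w y := pos_iff.mpr hy
  have hwz : 0 < w z := pos_iff.mpr hz
  have h1 : |w z - w y| ≤ w y / 2 := by
    refine (h w).trans ?_
    nlinarith
  refine (abs_log_sub_log_le hwz hwy h1).trans ?_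
  rw [div_le_iff₀ hwy]
  have := h w
  nlinarith

lemma abs_log_absN_sub_le_of_close (hy : y ≠ 0) (hz : z ≠ 0) (hρ : ρ ≤ 1 / 2)
    (h : ∀ w : InfinitePlace K, |w z - w y| ≤ ρ * w y) :
    |Real.log (absN K z) - Real.log (absN K y)| ≤ (finrank ℚ K : ℝ) * (2 * ρ) := by
  rw [log_absN hy, log_absN hz, ← Finset.sum_sub_distrib]
  refine (Finset.abs_sum_le_sum_abs _ _).trans ?_
  have h1 : ∀ w ∈ (Finset.univ : Finset (InfinitePlace K)),
      |(mult w : ℝ) * Real.log (w z) - (mult w : ℝ) * Real.log (w y)| ≤ (mult w : ℝ) * (2 * ρ) := by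
    intro w _
    rw [← mul_sub, abs_mul, abs_of_nonneg (Nat.cast_nonneg _)]
    exact mul_le_mul_of_nonneg_left (abs_log_place_sub_le_of_close hy hz hρ h w)
      (Nat.cast_nonneg _)
  refine (Finset.sum_le_sum h1).trans ?_
  rw [← Finset.sum_mul, ← Nat.cast_sum, sum_mult_eq]

lemma abs_logMap_sub_le_of_close (hy : y ≠ 0) (hz : z ≠ 0) (hρ0 : 0 ≤ ρ) (hρ : ρ ≤ 1 / 2)
    (h : ∀ w : InfinitePlace K, |w z - w y| ≤ ρ * w y) (w : {w : InfinitePlace K // w ≠ w₀}) :
    |logMap (mixedEmbedding K z) w - logMap (mixedEmbedding K y) w| ≤ 8 * ρ := by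
  rw [logMap_apply_place, logMap_apply_place, ← mul_sub, abs_mul,
    abs_of_nonneg (Nat.cast_nonneg _)]
  have h1 := abs_log_place_sub_le_of_close hy hz hρ h w.1
  have h2 := abs_log_absN_sub_le_of_close hy hz hρ h
  have hn := finrank_pos_real (K := K)
  have h3 : |(Real.log (absN K z) - Real.log (absN K y)) * (finrank ℚ K : ℝ)⁻¹| ≤ 2 * ρ := by
    rw [abs_mul, abs_of_pos (inv_pos.mpr hn), ← div_eq_mul_inv, div_le_iff₀ hn]
    linarith
  have h4 : |Real.log (w.1 z) - Real.log (absN K z) * (finrank ℚ K : ℝ)⁻¹ -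
      (Real.log (w.1 y) - Real.log (absN K y) * (finrank ℚ K : ℝ)⁻¹)| ≤ 4 * ρ := by
    have : Real.log (w.1 z) - Real.log (absN K z) * (finrank ℚ K : ℝ)⁻¹ -
      (Real.log (w.1 y) - Real.log (absN K y) * (finrank ℚ K : ℝ)⁻¹) =
      (Real.log (w.1 z) - Real.log (w.1 y)) -
        (Real.log (absN K z) - Real.log (absN K y)) * (finrank ℚ K : ℝ)⁻¹ := by ring
    rw [this]
    refine (abs_sub _ _).trans ?_
    linarith
  have h5 := mult_le_two' w.1
  have h6 := abs_nonneg (Real.log (w.1 z) - Real.log (absN K z) * (finrank ℚ K : ℝ)⁻¹ -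
      (Real.log (w.1 y) - Real.log (absN K y) * (finrank ℚ K : ℝ)⁻¹))
  nlinarith

variable (K) in
/-- Operator norm of the coordinate map. -/
def Tnorm : ℝ := ‖((coordCLE (K := K)) : logSpace K →L[ℝ] (Fin (rank K) → ℝ))‖

lemma Tnorm_nonneg : 0 ≤ Tnorm K := norm_nonneg _

lemma abs_tcoord_sub_le_of_close (hy : y ≠ 0) (hz : z ≠ 0) (hρ0 : 0 ≤ ρ) (hρ : ρ ≤ 1 / 2)
    (h : ∀ w : InfinitePlace K, |w z - w y| ≤ ρ * w y) (j : Fin (rank K)) :
    |tcoord K z j - tcoord K y j| ≤ Tnorm K * (8 * ρ) := by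
  have h1 : tcoord K z - tcoord K y =
      coordCLE (logMap (mixedEmbedding K z) - logMap (mixedEmbedding K y)) := by
    rw [map_sub, coordCLE_apply, coordCLE_apply]
  have h2 : ‖logMap (mixedEmbedding K z) - logMap (mixedEmbedding K y)‖ ≤ 8 * ρ := by
    rw [pi_norm_le_iff_of_nonneg (by positivity)]
    intro w
    rw [Pi.sub_apply, Real.norm_eq_abs]
    exact abs_logMap_sub_le_of_close hy hz hρ0 hρ h w
  have h3 := ContinuousLinearMap.le_opNorm
    ((coordCLE (K := K)) : logSpace K →L[ℝ] (Fin (rank K) → ℝ))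
    (logMap (mixedEmbedding K z) - logMap (mixedEmbedding K y))
  have h4 : ‖tcoord K z - tcoord K y‖ ≤ Tnorm K * (8 * ρ) := by
    rw [h1]
    refine h3.trans ?_
    exact mul_le_mul_of_nonneg_left h2 (norm_nonneg _)
  have h5 := norm_le_pi_norm (tcoord K z - tcoord K y) j
  rw [Pi.sub_apply, Real.norm_eq_abs] at h5
  exact h5.trans h4

lemma abs_Phi_sub_le_of_close (hy : y ≠ 0) (hz : z ≠ 0) (hρ0 : 0 ≤ ρ) (hρ : ρ ≤ 1 / 2)
    (h : ∀ w : InfinitePlace K, |w z - w y| ≤ ρ * w y) :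
    |Phi K z - Phi K y| ≤ (rank K : ℝ) * (Tnorm K * (8 * ρ)) := by
  unfold Phi
  refine (abs_tentProd_sub_le _ _).trans ?_
  refine (Finset.sum_le_card_nsmul _ _ _
    fun j _ ↦ abs_tcoord_sub_le_of_close hy hz hρ0 hρ h j).trans ?_
  simp

lemma abs_rpow_absN_sub_le_of_close (hy : y ≠ 0) (hz : z ≠ 0) (hρ0 : 0 ≤ ρ)
    (hρ : ρ * (4 * (finrank ℚ K : ℝ)) ≤ 1)
    (h : ∀ w : InfinitePlace K, |w z - w y| ≤ ρ * w y) {s : ℝ} (hs0 : 0 ≤ s) (hs2 : s ≤ 2) :
    |absN K z ^ (-s) - absN K y ^ (-s)| ≤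
      absN K y ^ (-s) * (8 * (finrank ℚ K : ℝ) * ρ) := by
  have hn1 := one_le_finrank_real (K := K)
  have hρ' : ρ ≤ 1 / 2 := by nlinarith
  have hNy := absN_pos hy
  have hNz := absN_pos hz
  have hlog := abs_log_absN_sub_le_of_close hy hz hρ' h
  set d := Real.log (absN K z) - Real.log (absN K y) with hd
  have h1 : absN K z ^ (-s) = absN K y ^ (-s) * Real.exp (-s * d) := by
    rw [Real.rpow_def_of_pos hNz, Real.rpow_def_of_pos hNy, ← Real.exp_add]
    congr 1
    rw [hd]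
    ring
  have h2 : |(-s) * d| ≤ 1 := by
    rw [abs_mul, abs_neg, abs_of_nonneg hs0]
    have : s * |d| ≤ 2 * ((finrank ℚ K : ℝ) * (2 * ρ)) :=
      mul_le_mul hs2 hlog (abs_nonneg _) (by norm_num)
    nlinarith
  have h3 := Real.abs_exp_sub_one_le h2
  have h4 : |(-s) * d| ≤ 4 * (finrank ℚ K : ℝ) * ρ := by
    rw [abs_mul, abs_neg, abs_of_nonneg hs0]
    have : s * |d| ≤ 2 * ((finrank ℚ K : ℝ) * (2 * ρ)) :=
      mul_le_mul hs2 hlog (abs_nonneg _) (by norm_num)
    linarith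
  rw [h1]
  have h5 : absN K y ^ (-s) * Real.exp (-s * d) - absN K y ^ (-s) =
      absN K y ^ (-s) * (Real.exp (-s * d) - 1) := by ring
  rw [h5, abs_mul, abs_of_nonneg (Real.rpow_nonneg hNy.le _)]
  refine mul_le_mul_of_nonneg_left ?_ (Real.rpow_nonneg hNy.le _)
  linarith

variable (K) in
/-- The constant in the local Lipschitz estimate. -/
def C₂ : ℝ := 24 * (rank K : ℝ) * Tnorm K + 8 * (finrank ℚ K : ℝ)

lemma C₂_nonneg : 0 ≤ C₂ K := by
  unfold C₂
  have := Tnorm_nonneg (K := K)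
  positivity

/-- Local Lipschitz estimate for `fS` for two nonzero elements that are close at every place. -/
theorem abs_fS_sub_le_of_close (hy : y ≠ 0) (hz : z ≠ 0) (hρ0 : 0 ≤ ρ)
    (hρ : ρ * (4 * (finrank ℚ K : ℝ)) ≤ 1)
    (h : ∀ w : InfinitePlace K, |w z - w y| ≤ ρ * w y) {s : ℝ} (hs0 : 0 ≤ s) (hs2 : s ≤ 2) :
    |fS K s z - fS K s y| ≤ absN K y ^ (-s) * ρ * C₂ K := by
  have hn1 := one_le_finrank_real (K := K)
  have hρ' : ρ ≤ 1 / 2 := by nlinarith
  have hΦ := abs_Phi_sub_le_of_close hy hz hρ0 hρ' h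
  have hN := abs_rpow_absN_sub_le_of_close hy hz hρ0 hρ h hs0 hs2
  have hNy0 : 0 ≤ absN K y ^ (-s) := Real.rpow_nonneg (absN_nonneg y) _
  have hNz0 : 0 ≤ absN K z ^ (-s) := Real.rpow_nonneg (absN_nonneg z) _
  have hNz : absN K z ^ (-s) ≤ 3 * absN K y ^ (-s) := by
    have h1 := (abs_le.mp hN).2
    have h2 : absN K y ^ (-s) * (8 * (finrank ℚ K : ℝ) * ρ) ≤ absN K y ^ (-s) * 2 := by
      refine mul_le_mul_of_nonneg_left ?_ hNy0
      nlinarith
    linarith
  unfold fS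
  have key : Phi K z * absN K z ^ (-s) - Phi K y * absN K y ^ (-s) =
      (Phi K z - Phi K y) * absN K z ^ (-s) +
        Phi K y * (absN K z ^ (-s) - absN K y ^ (-s)) := by ring
  rw [key]
  refine (abs_add_le _ _).trans ?_
  rw [abs_mul, abs_mul, abs_of_nonneg hNz0, abs_of_nonneg (Phi_nonneg K y)]
  have hT := Tnorm_nonneg (K := K)
  have hr : (0 : ℝ) ≤ rank K := Nat.cast_nonneg _
  have e1 : |Phi K z - Phi K y| * absN K z ^ (-s) ≤
      ((rank K : ℝ) * (Tnorm K * (8 * ρ))) * (3 * absN K y ^ (-s)) :=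
    mul_le_mul hΦ hNz hNz0 (by positivity)
  have e2 : Phi K y * |absN K z ^ (-s) - absN K y ^ (-s)| ≤
      1 * (absN K y ^ (-s) * (8 * (finrank ℚ K : ℝ) * ρ)) :=
    mul_le_mul (Phi_le_one K y) hN (abs_nonneg _) zero_le_one
  unfold C₂
  nlinarith

end close

lemma abs_place_sub_le (w : InfinitePlace K) (x y : K) : |w x - w y| ≤ w (x - y) :=
  w.1.abs_abv_sub_le_abv_sub x y

lemma rpow_neg_absN_le {y : K} (hy : y ≠ 0) (hΦ : Phi K y ≠ 0) (hbig : 1 ≤ kap K * nrm K y)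
    {s : ℝ} (hs1 : 1 ≤ s) :
    absN K y ^ (-s) ≤ ((kap K * nrm K y) ^ (finrank ℚ K))⁻¹ := by
  have h1 := kap_mul_nrm_pow_le_absN hy hΦ
  have hP : (1 : ℝ) ≤ (kap K * nrm K y) ^ (finrank ℚ K) := one_le_pow₀ hbig
  have hN1 : 1 ≤ absN K y := hP.trans h1
  have hN0 : 0 < absN K y := lt_of_lt_of_le zero_lt_one hN1
  rw [Real.rpow_neg hN0.le]
  have h2 : absN K y ≤ absN K y ^ s := by
    have := Real.rpow_le_rpow_of_exponent_le hN1 hs1
    rwa [Real.rpow_one] at this
  have h3 : (kap K * nrm K y) ^ (finrank ℚ K) ≤ absN K y ^ s := h1.trans h2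
  exact inv_anti₀ (lt_of_lt_of_le zero_lt_one hP) h3

/-- Core estimate: `y` in the support of `Phi`, `z` close to `y`. -/
lemma abs_fS_sub_le_core {y z : K} (hy : y ≠ 0) (hz : z ≠ 0) (hΦ : Phi K y ≠ 0)
    (hδ : nrm K (z - y) * (4 * (finrank ℚ K : ℝ)) ≤ kap K * nrm K y)
    (hbig : 1 ≤ kap K * nrm K y) {s : ℝ} (hs1 : 1 ≤ s) (hs2 : s ≤ 2) :
    |fS K s z - fS K s y| ≤
      C₂ K * nrm K (z - y) / (kap K * nrm K y) ^ (finrank ℚ K + 1) := by
  have hpos : 0 < kap K * nrm K y := lt_of_lt_of_le zero_lt_one hbig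
  set ρ := nrm K (z - y) / (kap K * nrm K y) with hρdef
  have hρ0 : 0 ≤ ρ := div_nonneg (nrm_nonneg _) hpos.le
  have hρ : ρ * (4 * (finrank ℚ K : ℝ)) ≤ 1 := by
    rw [hρdef, div_mul_eq_mul_div, div_le_one hpos]
    exact hδ
  have hclose : ∀ w : InfinitePlace K, |w z - w y| ≤ ρ * w y := by
    intro w
    refine (abs_place_sub_le w z y).trans ((place_le_nrm w (z - y)).trans ?_)
    have h1 : nrm K (z - y) = ρ * (kap K * nrm K y) := by
      rw [hρdef, div_mul_cancel₀ _ hpos.ne']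
    rw [h1]
    exact mul_le_mul_of_nonneg_left (kap_mul_nrm_le hy hΦ w) hρ0
  have h1 := abs_fS_sub_le_of_close hy hz hρ0 hρ hclose (by linarith : (0 : ℝ) ≤ s) hs2
  have h2 := rpow_neg_absN_le hy hΦ hbig hs1
  refine h1.trans ?_
  have h3 : absN K y ^ (-s) * ρ * C₂ K ≤
      ((kap K * nrm K y) ^ (finrank ℚ K))⁻¹ * ρ * C₂ K := by
    refine mul_le_mul_of_nonneg_right (mul_le_mul_of_nonneg_right h2 hρ0) C₂_nonneg
  refine h3.trans (le_of_eq ?_)
  rw [hρdef, pow_succ]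
  field_simp

variable (K) in
/-- Radius beyond which the global estimate holds. -/
def R₀ : ℝ := 8 * (finrank ℚ K : ℝ) / kap K

variable (K) in
/-- Constant of the global estimate. -/
def C₃ : ℝ := 2 ^ (finrank ℚ K + 1) * C₂ K / (kap K) ^ (finrank ℚ K + 1)

lemma R₀_pos : 0 < R₀ K := by
  unfold R₀
  have := finrank_pos_real (K := K)
  have := kap_pos (K := K)
  positivity

lemma C₃_nonneg : 0 ≤ C₃ K := by
  unfold C₃
  have := C₂_nonneg (K := K)
  have := kap_pos (K := K)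
  positivity

lemma kap_mul_R₀ : kap K * R₀ K = 8 * (finrank ℚ K : ℝ) := by
  unfold R₀
  have := kap_pos (K := K)
  field_simp

/-- Global Lipschitz estimate under translation. -/
theorem abs_fS_add_sub_le {s : ℝ} (hs1 : 1 ≤ s) (hs2 : s ≤ 2) {a c : K}
    (h : R₀ K * (1 + nrm K c) ≤ nrm K a) :
    |fS K s (a + c) - fS K s a| ≤ C₃ K * nrm K c / (nrm K a) ^ (finrank ℚ K + 1) := by
  have hn1 := one_le_finrank_real (K := K)
  have hκ := kap_pos (K := K)
  have hκ1 := kap_le_one (K := K)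
  have hR := R₀_pos (K := K)
  have hκR := kap_mul_R₀ (K := K)
  have hc0 := nrm_nonneg (K := K) c
  set A := nrm K a with hA
  have hA1 : R₀ K ≤ A := by nlinarith
  have hApos : 0 < A := lt_of_lt_of_le hR hA1
  have ha : a ≠ 0 := by
    intro h0
    rw [hA, h0] at hApos
    have : nrm K (0 : K) = 0 := nrm_eq_zero_iff.mpr rfl
    linarith
  -- `κ A ≥ 8 n (1 + nrm c)`
  have hκA : 8 * (finrank ℚ K : ℝ) * (1 + nrm K c) ≤ kap K * A := by
    have := mul_le_mul_of_nonneg_left h hκ.le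
    rw [← mul_assoc, hκR] at this
    exact this
  have hcA : nrm K c * 8 ≤ A := by
    have h8 : (8 : ℝ) ≤ R₀ K := by
      have : kap K * 8 ≤ kap K * R₀ K := by rw [hκR]; nlinarith
      exact le_of_mul_le_mul_left this hκ
    nlinarith
  have hac : A / 2 ≤ nrm K (a + c) := by
    have h1 : nrm K a ≤ nrm K (a + c) + nrm K c := by
      have := nrm_add_le (a + c) (-c)
      rwa [add_neg_cancel_right, nrm_neg] at this
    rw [← hA] at h1
    linarith
  have hacpos : 0 < nrm K (a + c) := by linarith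
  have hac0 : a + c ≠ 0 := by
    intro h0
    rw [h0] at hacpos
    have : nrm K (0 : K) = 0 := nrm_eq_zero_iff.mpr rfl
    linarith
  have hC2 := C₂_nonneg (K := K)
  by_cases hΦa : Phi K a ≠ 0
  · -- `y = a`, `z = a + c`
    have hδ : nrm K (a + c - a) * (4 * (finrank ℚ K : ℝ)) ≤ kap K * nrm K a := by
      rw [add_sub_cancel_left, ← hA]
      nlinarith
    have hbig : 1 ≤ kap K * nrm K a := by
      rw [← hA]
      nlinarith
    have h1 := abs_fS_sub_le_core ha hac0 hΦa hδ hbig hs1 hs2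
    rw [add_sub_cancel_left, ← hA] at h1
    refine h1.trans ?_
    unfold C₃
    rw [mul_pow, div_mul_eq_mul_div, div_div]
    have hden : 0 < kap K ^ (finrank ℚ K + 1) * A ^ (finrank ℚ K + 1) := by positivity
    rw [div_le_div_iff_of_pos_right hden]
    have h2 : (1 : ℝ) ≤ 2 ^ (finrank ℚ K + 1) := one_le_pow₀ (by norm_num)
    nlinarith [mul_nonneg hC2 hc0]
  · rw [not_not] at hΦa
    by_cases hΦac : Phi K (a + c) ≠ 0
    · -- `y = a + c`, `z = a`
      have hsub : nrm K (a - (a + c)) = nrm K c := by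
        rw [sub_add_cancel_left, nrm_neg]
      have hδ : nrm K (a - (a + c)) * (4 * (finrank ℚ K : ℝ)) ≤ kap K * nrm K (a + c) := by
        rw [hsub]
        have : kap K * (A / 2) ≤ kap K * nrm K (a + c) :=
          mul_le_mul_of_nonneg_left hac hκ.le
        nlinarith
      have hbig : 1 ≤ kap K * nrm K (a + c) := by
        have : kap K * (A / 2) ≤ kap K * nrm K (a + c) :=
          mul_le_mul_of_nonneg_left hac hκ.le
        nlinarith
      have h1 := abs_fS_sub_le_core hac0 ha hΦac hδ hbig hs1 hs2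
      rw [hsub, abs_sub_comm] at h1
      refine h1.trans ?_
      have h2 : (kap K * (A / 2)) ^ (finrank ℚ K + 1) ≤
          (kap K * nrm K (a + c)) ^ (finrank ℚ K + 1) :=
        pow_le_pow_left₀ (by positivity) (mul_le_mul_of_nonneg_left hac hκ.le) _
      have h3 : C₂ K * nrm K c / (kap K * nrm K (a + c)) ^ (finrank ℚ K + 1) ≤
          C₂ K * nrm K c / (kap K * (A / 2)) ^ (finrank ℚ K + 1) :=
        div_le_div_of_nonneg_left (mul_nonneg hC2 hc0) (by positivity) h2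
      refine h3.trans (le_of_eq ?_)
      unfold C₃
      rw [mul_pow, div_pow]
      field_simp
    · rw [not_not] at hΦac
      unfold fS
      rw [hΦa, hΦac, zero_mul, zero_mul, sub_zero, abs_zero]
      have := C₃_nonneg (K := K)
      positivity

end

end Fermat.Agent.S14.N1H150
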