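import Mathlib
import Fermat.Agent.S14.N1H150.Lipschitz

/-!
# Lattice sums of `fS`

Summability of `a ↦ fS s a` over `𝓞 K` for `s > 1`, and the uniform bound on
`∑_{a ∈ J} |fS s (a + c) - fS s a|` for `s ∈ [1, 2]`.
-/

namespace Fermat.Agent.S14.N1H150

noncomputable section

open NumberField NumberField.InfinitePlace NumberField.Units NumberField.mixedEmbedding
  NumberField.Units.dirichletUnitTheorem Module

open scoped Classical

variable (K : Type*) [Field K] [NumberField K]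

/-- The injection of `𝓞 K` into the integer lattice of the mixed space. -/
def toLattice (a : 𝓞 K) : mixedEmbedding.integerLattice K :=
  ⟨mixedEmbedding K (a : K), ⟨a, rfl⟩⟩

lemma toLattice_injective : Function.Injective (toLattice K) := by
  intro a b h
  have h1 : mixedEmbedding K (a : K) = mixedEmbedding K (b : K) := congrArg Subtype.val h
  exact RingOfIntegers.coe_injective ((mixedEmbedding_injective K) h1)

lemma norm_toLattice (a : 𝓞 K) : ‖toLattice K a‖ = nrm K (a : K) := rfl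

lemma finrank_integerLattice :
    finrank ℤ (mixedEmbedding.integerLattice K) = finrank ℚ K := by
  rw [ZLattice.rank ℝ, mixedEmbedding.finrank]

lemma summable_nrm_rpow {r : ℝ} (hr : r < -(finrank ℚ K : ℝ)) :
    Summable (fun a : 𝓞 K ↦ (nrm K (a : K)) ^ r) := by
  have hr' : r < -(finrank ℤ (mixedEmbedding.integerLattice K) : ℝ) := by
    rw [finrank_integerLattice]; exact hr
  have h : Summable (fun z : mixedEmbedding.integerLattice K ↦ ‖z‖ ^ r) :=
    ZLattice.summable_norm_rpow (mixedEmbedding.integerLattice K) r hr'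
  have h2 := h.comp_injective (toLattice_injective K)
  refine h2.congr fun a ↦ ?_
  simp only [Function.comp_apply]
  rw [norm_toLattice]

lemma coe_zero' : ((0 : 𝓞 K) : K) = 0 := map_zero (algebraMap (𝓞 K) K)

lemma coe_add' (a b : 𝓞 K) : ((a + b : 𝓞 K) : K) = (a : K) + (b : K) :=
  map_add (algebraMap (𝓞 K) K) a b

lemma coe_mul' (a b : 𝓞 K) : ((a * b : 𝓞 K) : K) = (a : K) * (b : K) :=
  map_mul (algebraMap (𝓞 K) K) a b

variable {K}

lemma one_le_absN_of_integer {a : 𝓞 K} (ha : a ≠ 0) : 1 ≤ absN K (a : K) := by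
  unfold absN
  rw [norm_eq_norm, ← Algebra.coe_norm_int, ← Int.cast_abs]
  have h1 : Algebra.norm ℤ a ≠ 0 := by
    rw [ne_eq, Algebra.norm_eq_zero_iff]
    exact ha
  have h2 : (1 : ℤ) ≤ |Algebra.norm ℤ a| := Int.one_le_abs h1
  have h3 : ((1 : ℤ) : ℚ) ≤ ((|Algebra.norm ℤ a| : ℤ) : ℚ) := Int.cast_le.mpr h2
  have h4 : (((1 : ℤ) : ℚ) : ℝ) ≤ (((|Algebra.norm ℤ a| : ℤ) : ℚ) : ℝ) := Rat.cast_le.mpr h3
  simpa using h4

lemma fS_le_one_of_integer {s : ℝ} (hs : 0 < s) (a : 𝓞 K) : fS K s (a : K) ≤ 1 := by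
  by_cases ha : a = 0
  · rw [ha, coe_zero', fS_zero hs.ne']
    exact zero_le_one
  · unfold fS
    have h1 := one_le_absN_of_integer ha
    have h2 : absN K (a : K) ^ (-s) ≤ 1 :=
      Real.rpow_le_one_of_one_le_of_nonpos h1 (by linarith)
    have h3 := Phi_le_one K (a : K)
    have h4 := Phi_nonneg K (a : K)
    have h5 : 0 ≤ absN K (a : K) ^ (-s) := Real.rpow_nonneg (absN_nonneg _) _
    nlinarith

lemma abs_fS_sub_le_one_of_integer {s : ℝ} (hs : 0 < s) (a b : 𝓞 K) :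
    |fS K s (a : K) - fS K s (b : K)| ≤ 1 := by
  rw [abs_le]
  have h1 := fS_le_one_of_integer hs a
  have h2 := fS_le_one_of_integer hs b
  have h3 := fS_nonneg (K := K) s (a : K)
  have h4 := fS_nonneg (K := K) s (b : K)
  constructor <;> linarith

/-- Pointwise bound of `fS` by a power of `nrm`. -/
lemma fS_le_rpow {s : ℝ} (hs : 0 ≤ s) (a : K) :
    fS K s a ≤ (kap K) ^ (-((finrank ℚ K : ℝ) * s)) * (nrm K a) ^ (-((finrank ℚ K : ℝ) * s)) := by
  have hκ := kap_pos (K := K)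
  have hrhs : 0 ≤ (kap K) ^ (-((finrank ℚ K : ℝ) * s)) *
      (nrm K a) ^ (-((finrank ℚ K : ℝ) * s)) :=
    mul_nonneg (Real.rpow_nonneg hκ.le _) (Real.rpow_nonneg (nrm_nonneg a) _)
  by_cases hΦ : Phi K a = 0
  · unfold fS
    rw [hΦ, zero_mul]
    exact hrhs
  by_cases ha : a = 0
  · subst ha
    unfold fS
    rw [absN_zero]
    by_cases hs0 : s = 0
    · rw [hs0]
      simp only [neg_zero, Real.rpow_zero, mul_one, mul_zero]
      exact Phi_le_one K 0
    · rw [Real.zero_rpow (neg_ne_zero.mpr hs0), mul_zero]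
      exact hrhs
  have hnrm : 0 < nrm K a := lt_of_le_of_ne (nrm_nonneg a)
    (fun h ↦ ha (nrm_eq_zero_iff.mp h.symm))
  have h1 := kap_mul_nrm_pow_le_absN ha hΦ
  have hpos : 0 < (kap K * nrm K a) ^ (finrank ℚ K) := by positivity
  have h2 : absN K a ^ (-s) ≤ ((kap K * nrm K a) ^ (finrank ℚ K)) ^ (-s) :=
    Real.rpow_le_rpow_of_nonpos hpos h1 (by linarith)
  have h3 : ((kap K * nrm K a) ^ (finrank ℚ K)) ^ (-s) =
      (kap K) ^ (-((finrank ℚ K : ℝ) * s)) * (nrm K a) ^ (-((finrank ℚ K : ℝ) * s)) := by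
    rw [← Real.rpow_natCast, ← Real.rpow_mul (by positivity), Real.mul_rpow hκ.le hnrm.le]
    congr 2 <;> ring
  unfold fS
  calc Phi K a * absN K a ^ (-s) ≤ 1 * absN K a ^ (-s) :=
        mul_le_mul_of_nonneg_right (Phi_le_one K a) (Real.rpow_nonneg (absN_nonneg _) _)
    _ = absN K a ^ (-s) := one_mul _
    _ ≤ _ := h2
    _ = _ := h3

lemma summable_fS {s : ℝ} (hs : 1 < s) : Summable (fun a : 𝓞 K ↦ fS K s (a : K)) := by
  have hn := finrank_pos_real (K := K)
  have hr : -((finrank ℚ K : ℝ) * s) < -(finrank ℚ K : ℝ) := by nlinarith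
  have h1 := (summable_nrm_rpow K hr).mul_left ((kap K) ^ (-((finrank ℚ K : ℝ) * s)))
  exact Summable.of_nonneg_of_le (fun a ↦ fS_nonneg s _) (fun a ↦ fS_le_rpow (by linarith) _) h1

/-- The dominating function for differences. -/
def domG (c : K) (a : 𝓞 K) : ℝ :=
  (if a = 0 then 1 else 0) +
    ((R₀ K * (1 + nrm K c)) ^ (finrank ℚ K + 1) + C₃ K * nrm K c) *
      (nrm K (a : K)) ^ (-((finrank ℚ K : ℝ) + 1))

lemma summable_domG (c : K) : Summable (domG c : 𝓞 K → ℝ) := by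
  unfold domG
  refine Summable.add ?_ ?_
  · exact (hasSum_ite_eq (0 : 𝓞 K) (1 : ℝ)).summable
  · refine Summable.mul_left _ (summable_nrm_rpow K ?_)
    linarith

lemma abs_fS_add_sub_le_domG {s : ℝ} (hs1 : 1 ≤ s) (hs2 : s ≤ 2) (c a : 𝓞 K) :
    |fS K s ((a : K) + (c : K)) - fS K s (a : K)| ≤ domG (c : K) a := by
  have hR := R₀_pos (K := K)
  have hC := C₃_nonneg (K := K)
  have hc0 := nrm_nonneg (K := K) (c : K)
  have hle1 : |fS K s ((a : K) + (c : K)) - fS K s (a : K)| ≤ 1 := by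
    have := abs_fS_sub_le_one_of_integer (K := K) (s := s) (by linarith) (a + c) a
    rwa [coe_add'] at this
  unfold domG
  by_cases ha : a = 0
  · rw [if_pos ha]
    have : 0 ≤ ((R₀ K * (1 + nrm K (c : K))) ^ (finrank ℚ K + 1) + C₃ K * nrm K (c : K)) *
        (nrm K (a : K)) ^ (-((finrank ℚ K : ℝ) + 1)) := by
      have := Real.rpow_nonneg (nrm_nonneg (K := K) (a : K)) (-((finrank ℚ K : ℝ) + 1))
      positivity
    linarith
  · rw [if_neg ha, zero_add]
    have haK : (a : K) ≠ 0 := RingOfIntegers.coe_ne_zero_iff.mpr ha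
    have hnrm : 0 < nrm K (a : K) := lt_of_le_of_ne (nrm_nonneg _)
      (fun h ↦ haK (nrm_eq_zero_iff.mp h.symm))
    have hpow : (nrm K (a : K)) ^ (-((finrank ℚ K : ℝ) + 1)) =
        ((nrm K (a : K)) ^ (finrank ℚ K + 1))⁻¹ := by
      rw [Real.rpow_neg hnrm.le]
      congr 1
      rw [← Real.rpow_natCast]
      congr 1
      push_cast
      ring
    rw [hpow, add_mul]
    have hP : 0 < (nrm K (a : K)) ^ (finrank ℚ K + 1) := by positivity
    by_cases hbig : R₀ K * (1 + nrm K (c : K)) ≤ nrm K (a : K)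
    · have h1 := abs_fS_add_sub_le hs1 hs2 hbig
      rw [div_eq_mul_inv] at h1
      have h2 : 0 ≤ (R₀ K * (1 + nrm K (c : K))) ^ (finrank ℚ K + 1) *
          ((nrm K (a : K)) ^ (finrank ℚ K + 1))⁻¹ := by positivity
      linarith
    · rw [not_le] at hbig
      have h1 : 1 ≤ (R₀ K * (1 + nrm K (c : K))) ^ (finrank ℚ K + 1) *
          ((nrm K (a : K)) ^ (finrank ℚ K + 1))⁻¹ := by
        rw [← div_eq_mul_inv, one_le_div hP]
        exact pow_le_pow_left₀ hnrm.le hbig.le _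
      have h2 : 0 ≤ C₃ K * nrm K (c : K) * ((nrm K (a : K)) ^ (finrank ℚ K + 1))⁻¹ := by
        positivity
      linarith

lemma domG_nonneg (c : K) (a : 𝓞 K) : 0 ≤ domG c a := by
  unfold domG
  have h1 : (0 : ℝ) ≤ if a = 0 then 1 else 0 := by split_ifs <;> norm_num
  have h2 := Real.rpow_nonneg (nrm_nonneg (K := K) (a : K)) (-((finrank ℚ K : ℝ) + 1))
  have h3 := C₃_nonneg (K := K)
  have h4 := nrm_nonneg (K := K) c
  have h5 := R₀_pos (K := K)
  positivity

/-- The uniform bound for the translated sum over any injectively indexed family in `𝓞 K`. -/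
theorem abs_tsum_fS_add_sub_le {ι : Type*} (i : ι → 𝓞 K) (hi : Function.Injective i)
    (c : 𝓞 K) {s : ℝ} (hs1 : 1 < s) (hs2 : s ≤ 2)
    (hsum : Summable (fun x : ι ↦ fS K s (((i x : 𝓞 K) : K) + (c : K)))) :
    |∑' x : ι, fS K s (((i x : 𝓞 K) : K) + (c : K)) - ∑' x : ι, fS K s ((i x : 𝓞 K) : K)| ≤
      ∑' a : 𝓞 K, domG (c : K) a := by
  have hsum2 : Summable (fun x : ι ↦ fS K s ((i x : 𝓞 K) : K)) :=
    (summable_fS hs1).comp_injective hi
  rw [← hsum.tsum_sub hsum2]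
  have hG := summable_domG (K := K) (c : K)
  have hGS : Summable (fun x : ι ↦ domG (c : K) (i x)) := hG.comp_injective hi
  have hbound : ∀ x : ι, ‖fS K s (((i x : 𝓞 K) : K) + (c : K)) - fS K s ((i x : 𝓞 K) : K)‖ ≤
      domG (c : K) (i x) := fun x ↦ by
    rw [Real.norm_eq_abs]
    exact abs_fS_add_sub_le_domG hs1.le hs2 c (i x)
  have hnorm : Summable (fun x : ι ↦
      ‖fS K s (((i x : 𝓞 K) : K) + (c : K)) - fS K s ((i x : 𝓞 K) : K)‖) :=
    Summable.of_nonneg_of_le (fun _ ↦ norm_nonneg _) hbound hGS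
  rw [← Real.norm_eq_abs]
  refine (norm_tsum_le_tsum_norm hnorm).trans ?_
  refine (hnorm.tsum_le_tsum hbound hGS).trans ?_
  exact tsum_comp_le_tsum_of_inj hG (domG_nonneg (c : K)) hi

end

end Fermat.Agent.S14.N1H150
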