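import Mathlib
import Fermat.Agent.S14.N1H150.Lattice

/-!
# Coset decomposition: comparing the sum over `𝓞 K` with the sum over an ideal
-/

namespace Fermat.Agent.S14.N1H150

noncomputable section

open NumberField NumberField.InfinitePlace NumberField.Units NumberField.mixedEmbedding
  NumberField.Units.dirichletUnitTheorem Module

open scoped Classical

variable {K : Type*} [Field K] [NumberField K]

/-- Decomposition of `𝓞 K` into cosets of the ideal `J`. -/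
def cosetEquiv (J : Ideal (𝓞 K)) : (𝓞 K ⧸ J) × J ≃ 𝓞 K where
  toFun p := Quotient.out p.1 + (p.2 : 𝓞 K)
  invFun a := (Ideal.Quotient.mk J a, ⟨a - Quotient.out (Ideal.Quotient.mk J a), by
    rw [← Ideal.Quotient.eq, Ideal.Quotient.mk_out]⟩)
  left_inv p := by
    obtain ⟨q, b⟩ := p
    have h1 : Ideal.Quotient.mk J (Quotient.out q + (b : 𝓞 K)) = q := by
      rw [map_add, Ideal.Quotient.mk_out, Ideal.Quotient.eq_zero_iff_mem.mpr b.2, add_zero]
    refine Prod.ext h1 (Subtype.ext ?_)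
    show Quotient.out q + (b : 𝓞 K) -
      Quotient.out (Ideal.Quotient.mk J (Quotient.out q + (b : 𝓞 K))) = (b : 𝓞 K)
    rw [h1]
    ring
  right_inv a := by
    simp

lemma cosetEquiv_apply (J : Ideal (𝓞 K)) (p : (𝓞 K ⧸ J) × J) :
    cosetEquiv J p = Quotient.out p.1 + (p.2 : 𝓞 K) := rfl

/-- The sum of `fS` over the ideal `J`. -/
def sumJ (J : Ideal (𝓞 K)) (s : ℝ) : ℝ := ∑' b : J, fS K s (((b : 𝓞 K)) : K)

/-- The sum of `fS` over `𝓞 K`. -/
def sumO (K : Type*) [Field K] [NumberField K] (s : ℝ) : ℝ := ∑' a : 𝓞 K, fS K s (a : K)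

lemma sumJ_nonneg (J : Ideal (𝓞 K)) (s : ℝ) : 0 ≤ sumJ J s :=
  tsum_nonneg fun _ ↦ fS_nonneg s _

lemma sumO_nonneg (s : ℝ) : 0 ≤ sumO K s :=
  tsum_nonneg fun _ ↦ fS_nonneg s _

/-- The constant in the coset comparison. -/
def BJ (J : Ideal (𝓞 K)) [Fintype (𝓞 K ⧸ J)] : ℝ :=
  ∑ q : 𝓞 K ⧸ J, ∑' a : 𝓞 K, domG (((Quotient.out q : 𝓞 K)) : K) a

lemma BJ_nonneg (J : Ideal (𝓞 K)) [Fintype (𝓞 K ⧸ J)] : 0 ≤ BJ J :=
  Finset.sum_nonneg fun _ _ ↦ tsum_nonneg fun a ↦ domG_nonneg _ a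

theorem abs_sumO_sub_le (J : Ideal (𝓞 K)) [Fintype (𝓞 K ⧸ J)] {s : ℝ} (hs1 : 1 < s)
    (hs2 : s ≤ 2) :
    |sumO K s - (Fintype.card (𝓞 K ⧸ J) : ℝ) * sumJ J s| ≤ BJ J := by
  have hsumm := summable_fS (K := K) hs1
  -- decompose along cosets
  have h1 : sumO K s = ∑' p : (𝓞 K ⧸ J) × J, fS K s ((cosetEquiv J p : 𝓞 K) : K) := by
    unfold sumO
    exact ((cosetEquiv J).tsum_eq (fun a : 𝓞 K ↦ fS K s (a : K))).symm
  have hsumm2 : Summable (fun p : (𝓞 K ⧸ J) × J ↦ fS K s ((cosetEquiv J p : 𝓞 K) : K)) :=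
    (cosetEquiv J).summable_iff.mpr hsumm
  have h2 : sumO K s = ∑ q : 𝓞 K ⧸ J, ∑' b : J, fS K s ((cosetEquiv J (q, b) : 𝓞 K) : K) := by
    rw [h1, hsumm2.tsum_prod, tsum_fintype]
  have h3 : (Fintype.card (𝓞 K ⧸ J) : ℝ) * sumJ J s = ∑ _q : 𝓞 K ⧸ J, sumJ J s := by
    rw [Finset.sum_const, Finset.card_univ, nsmul_eq_mul]
  rw [h2, h3, ← Finset.sum_sub_distrib]
  refine (Finset.abs_sum_le_sum_abs _ _).trans ?_
  unfold BJ
  refine Finset.sum_le_sum fun q _ ↦ ?_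
  have hinj : Function.Injective (fun b : J ↦ (b : 𝓞 K)) := Subtype.val_injective
  have hfun : (fun b : J ↦ fS K s ((cosetEquiv J (q, b) : 𝓞 K) : K)) =
      fun b : J ↦ fS K s ((((b : 𝓞 K)) : K) + ((Quotient.out q : 𝓞 K) : K)) := by
    funext b
    rw [cosetEquiv_apply, coe_add', add_comm]
  have hsumm3 : Summable (fun b : J ↦ fS K s ((((b : 𝓞 K)) : K) +
      ((Quotient.out q : 𝓞 K) : K))) := by
    rw [← hfun]
    exact hsumm2.comp_injective (fun b b' h ↦ by simpa using h)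
  have := abs_tsum_fS_add_sub_le (fun b : J ↦ (b : 𝓞 K)) hinj (Quotient.out q) hs1 hs2 hsumm3
  rw [hfun]
  exact this

end

end Fermat.Agent.S14.N1H150
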