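import Mathlib
import Fermat.Agent.S14.N1H150.Coset

/-!
# Reindexing: the partial zeta function of an ideal class as a smoothed lattice sum
-/

namespace Fermat.Agent.S14.N1H150

noncomputable section

open NumberField NumberField.InfinitePlace NumberField.Units NumberField.mixedEmbedding
  NumberField.Units.dirichletUnitTheorem Module

open scoped Classical nonZeroDivisors

variable {K : Type*} [Field K] [NumberField K]

lemma absN_mul (a b : K) : absN K (a * b) = absN K a * absN K b := by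
  unfold absN
  rw [map_mul, map_mul]

lemma absN_unit (u : (𝓞 K)ˣ) : absN K (((u : 𝓞 K)) : K) = 1 := norm_unit u

lemma absN_eq_absNorm (a : 𝓞 K) :
    absN K (a : K) = (Ideal.absNorm (Ideal.span {a}) : ℝ) := by
  unfold absN
  rw [norm_eq_norm, Ideal.absNorm_span_singleton, ← Algebra.coe_norm_int, Nat.cast_natAbs]
  push_cast
  rfl

lemma fS_unit_mul (s : ℝ) (u : (𝓞 K)ˣ) (a : K) :
    fS K s ((((u : 𝓞 K)) : K) * a) = Phi K ((((u : 𝓞 K)) : K) * a) * absN K a ^ (-s) := by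
  unfold fS
  rw [absN_mul, absN_unit, one_mul]

/-- The sum of `fS` over a unit orbit. -/
lemma hasSum_fS_unit_mul (s : ℝ) {a : K} (ha : a ≠ 0) :
    HasSum (fun u : (𝓞 K)ˣ ↦ fS K s ((((u : 𝓞 K)) : K) * a))
      ((torsionOrder K : ℝ) * absN K a ^ (-s)) := by
  have h := (hasSum_Phi_unit_mul K ha).mul_right (absN K a ^ (-s))
  refine h.congr_fun ?_
  intro u
  exact fS_unit_mul s u a

variable (J : Ideal (𝓞 K))

/-- Nonzero elements of `J`. -/
abbrev XJ : Type _ := {a : 𝓞 K // a ∈ J ∧ a ≠ 0}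

/-- Nonzero principal ideals divisible by `J`. -/
abbrev PJ : Type _ := {I : Ideal (𝓞 K) // J ∣ I ∧ I.IsPrincipal ∧ I ≠ ⊥}

/-- The map from nonzero elements of `J` to the principal ideals they generate. -/
def toPJ (a : XJ J) : PJ J :=
  ⟨Ideal.span {a.1}, Ideal.dvd_span_singleton.mpr a.2.1, ⟨⟨a.1, rfl⟩⟩,
    fun h ↦ a.2.2 (Ideal.span_singleton_eq_bot.mp h)⟩

lemma toPJ_val (a : XJ J) : (toPJ J a).1 = Ideal.span {a.1} := rfl

/-- The orbit map from units to a fibre of `toPJ`. -/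
def orbitMap (a₀ : XJ J) (u : (𝓞 K)ˣ) : (toPJ J) ⁻¹' {toPJ J a₀} :=
  ⟨⟨(u : 𝓞 K) * a₀.1, J.mul_mem_left _ a₀.2.1,
      mul_ne_zero (Units.ne_zero u) a₀.2.2⟩, by
    rw [Set.mem_preimage, Set.mem_singleton_iff]
    apply Subtype.ext
    rw [toPJ_val, toPJ_val]
    rw [Ideal.span_singleton_eq_span_singleton]
    exact (associated_unit_mul_left _ _ u.isUnit)⟩

lemma orbitMap_bijective (a₀ : XJ J) : Function.Bijective (orbitMap J a₀) := by
  constructor
  · intro u v h
    have h1 : (u : 𝓞 K) * a₀.1 = (v : 𝓞 K) * a₀.1 := by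
      have := congrArg (fun x : (toPJ J) ⁻¹' {toPJ J a₀} ↦ (x.1.1 : 𝓞 K)) h
      exact this
    exact Units.ext (mul_right_cancel₀ a₀.2.2 h1)
  · intro x
    have hx : toPJ J x.1 = toPJ J a₀ := x.2
    have h1 : Ideal.span {x.1.1} = Ideal.span {a₀.1} := congrArg Subtype.val hx
    rw [Ideal.span_singleton_eq_span_singleton] at h1
    obtain ⟨u, hu⟩ := h1.symm
    refine ⟨u, ?_⟩
    apply Subtype.ext
    apply Subtype.ext
    show (u : 𝓞 K) * a₀.1 = x.1.1
    rw [mul_comm]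
    exact hu

/-- The sum of `fS` over a fibre of `toPJ`. -/
lemma tsum_fibre (s : ℝ) (p : PJ J) :
    ∑' x : (toPJ J) ⁻¹' {p}, fS K s (((x.1.1 : 𝓞 K)) : K) =
      (torsionOrder K : ℝ) * (Ideal.absNorm p.1 : ℝ) ^ (-s) := by
  obtain ⟨I, hdvd, hprin, hne⟩ := p
  obtain ⟨a, ha⟩ := hprin.principal
  have ha' : I = Ideal.span {a} := ha
  have ha0 : a ≠ 0 := by
    intro h0
    apply hne
    rw [ha', h0]
    exact Ideal.span_singleton_eq_bot.mpr rfl
  have haJ : a ∈ J := by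
    rw [ha'] at hdvd
    exact Ideal.dvd_span_singleton.mp hdvd
  set a₀ : XJ J := ⟨a, haJ, ha0⟩ with ha₀
  have hp : (⟨I, hdvd, hprin, hne⟩ : PJ J) = toPJ J a₀ := by
    apply Subtype.ext
    rw [toPJ_val]
    exact ha'
  rw [hp]
  have e := Equiv.ofBijective (orbitMap J a₀) (orbitMap_bijective J a₀)
  have haK : ((a : 𝓞 K) : K) ≠ 0 := RingOfIntegers.coe_ne_zero_iff.mpr ha0
  have h1 := hasSum_fS_unit_mul (K := K) s haK
  have h2 : HasSum (fun x : (toPJ J) ⁻¹' {toPJ J a₀} ↦ fS K s (((x.1.1 : 𝓞 K)) : K))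
      ((torsionOrder K : ℝ) * absN K ((a : 𝓞 K) : K) ^ (-s)) := by
    rw [← (Equiv.ofBijective (orbitMap J a₀) (orbitMap_bijective J a₀)).hasSum_iff]
    refine h1.congr_fun ?_
    intro u
    simp only [Function.comp_apply, Equiv.ofBijective_apply]
    show fS K s ((((u : 𝓞 K) * a₀.1 : 𝓞 K)) : K) = _
    rw [coe_mul']
  rw [h2.tsum_eq, absN_eq_absNorm, toPJ_val]

/-- The sum over nonzero principal ideals divisible by `J`, with weight `N(I)^(-s)`. -/
theorem hasSum_PJ {s : ℝ} (hs : 1 < s) :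
    HasSum (fun p : PJ J ↦ (torsionOrder K : ℝ) * (Ideal.absNorm p.1 : ℝ) ^ (-s))
      (sumJ J s) := by
  -- sum over `J`
  have h0 : HasSum (fun b : J ↦ fS K s (((b : 𝓞 K)) : K)) (sumJ J s) :=
    ((summable_fS hs).comp_injective Subtype.val_injective).hasSum
  -- sum over nonzero elements of `J`
  have h1 : HasSum (fun x : XJ J ↦ fS K s (((x.1 : 𝓞 K)) : K)) (sumJ J s) := by
    let e : XJ J ≃ {b : J // (b : 𝓞 K) ≠ 0} :=
      { toFun := fun x ↦ ⟨⟨x.1, x.2.1⟩, x.2.2⟩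
        invFun := fun b ↦ ⟨b.1.1, b.1.2, b.2⟩
        left_inv := fun x ↦ rfl
        right_inv := fun b ↦ rfl }
    have h2 : HasSum (fun b : {b : J // (b : 𝓞 K) ≠ 0} ↦ fS K s ((((b : J) : 𝓞 K)) : K))
        (sumJ J s) := by
      have hsupp : Function.support (fun b : J ↦ fS K s (((b : 𝓞 K)) : K)) ⊆
          {b : J | (b : 𝓞 K) ≠ 0} := by
        intro b hb
        rw [Function.mem_support] at hb
        intro h0
        apply hb
        rw [h0, coe_zero', fS_zero (by linarith : s ≠ 0)]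
      exact (hasSum_subtype_iff_of_support_subset hsupp).mpr h0
    exact (e.hasSum_iff (f := fun b : {b : J // (b : 𝓞 K) ≠ 0} ↦
      fS K s ((((b : J) : 𝓞 K)) : K))).mpr h2
  have h3 := h1.tsum_fiberwise (toPJ J)
  refine h3.congr_fun ?_
  intro p
  exact (tsum_fibre J s p).symm

end

end Fermat.Agent.S14.N1H150
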