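import Mathlib
import Fermat.Agent.S14.N1H150.Coset

/-!
# The bound `(s - 1) * sumO K s = O(1)` on `(1, 2]`
-/

namespace Fermat.Agent.S14.N1H150

noncomputable section

open NumberField NumberField.InfinitePlace NumberField.Units NumberField.mixedEmbedding
  NumberField.Units.dirichletUnitTheorem Module Filter Topology

open scoped Classical

/-- The `p`-series is antitone in the exponent. -/
lemma tsum_one_div_nat_rpow_le {σ τ : ℝ} (hτ : 1 < τ) (hστ : τ ≤ σ) :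
    ∑' k : ℕ, 1 / (k : ℝ) ^ σ ≤ ∑' k : ℕ, 1 / (k : ℝ) ^ τ := by
  have hσ : 1 < σ := lt_of_lt_of_le hτ hστ
  refine (Real.summable_one_div_nat_rpow.mpr hσ).tsum_le_tsum ?_
    (Real.summable_one_div_nat_rpow.mpr hτ)
  intro k
  rcases Nat.eq_zero_or_pos k with hk | hk
  · subst hk
    simp only [Nat.cast_zero]
    rw [Real.zero_rpow (by linarith), Real.zero_rpow (by linarith)]
  · have hk1 : (1 : ℝ) ≤ k := by exact_mod_cast hk
    have hpos : (0 : ℝ) < k := by linarith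
    apply one_div_le_one_div_of_le (Real.rpow_pos_of_pos hpos _)
    exact Real.rpow_le_rpow_of_exponent_le hk1 hστ

/-- Uniform bound for `(σ - 1) ζ(σ)` on `(1, M]`. -/
lemma exists_pseries_bound (M : ℝ) :
    ∃ Z : ℝ, 0 ≤ Z ∧ ∀ σ : ℝ, 1 < σ → σ ≤ M → (σ - 1) * ∑' k : ℕ, 1 / (k : ℝ) ^ σ ≤ Z := by
  have h := tendsto_sub_mul_tsum_nat_rpow
  have hev : ∀ᶠ σ : ℝ in 𝓝[>] 1, (σ - 1) * ∑' k : ℕ, 1 / (k : ℝ) ^ σ < 2 :=
    h.eventually (gt_mem_nhds (by norm_num : (1 : ℝ) < 2))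
  rw [eventually_nhdsWithin_iff, Metric.eventually_nhds_iff] at hev
  obtain ⟨δ, hδ, hball⟩ := hev
  set τ : ℝ := 1 + δ / 2 with hτ
  have hτ1 : 1 < τ := by rw [hτ]; linarith
  set Zτ : ℝ := ∑' k : ℕ, 1 / (k : ℝ) ^ τ with hZτ
  have hZτ0 : 0 ≤ Zτ := tsum_nonneg fun k ↦ by positivity
  refine ⟨2 + |M| * Zτ, by positivity, fun σ hσ1 hσM ↦ ?_⟩
  by_cases hσ : σ < 1 + δ
  · have hdist : dist σ 1 < δ := by
      rw [Real.dist_eq, abs_lt]
      constructor <;> linarith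
    have := hball hdist hσ1
    have h2 : 0 ≤ |M| * Zτ := by positivity
    linarith
  · rw [not_lt] at hσ
    have hle : ∑' k : ℕ, 1 / (k : ℝ) ^ σ ≤ Zτ :=
      tsum_one_div_nat_rpow_le hτ1 (by rw [hτ]; linarith)
    have hσ0 : 0 ≤ σ - 1 := by linarith
    have hσM' : σ - 1 ≤ |M| := by
      have := le_abs_self M
      linarith
    have h3 : (σ - 1) * ∑' k : ℕ, 1 / (k : ℝ) ^ σ ≤ |M| * Zτ := by
      have hnn : 0 ≤ ∑' k : ℕ, 1 / (k : ℝ) ^ σ := tsum_nonneg fun k ↦ by positivity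
      calc (σ - 1) * ∑' k : ℕ, 1 / (k : ℝ) ^ σ ≤ |M| * ∑' k : ℕ, 1 / (k : ℝ) ^ σ :=
            mul_le_mul_of_nonneg_right hσM' hnn
        _ ≤ |M| * Zτ := mul_le_mul_of_nonneg_left hle (abs_nonneg _)
    linarith

variable (K : Type*) [Field K] [NumberField K]

/-- The lattice sum of `nrm ^ r` is bounded by a `p`-series. -/
lemma tsum_nrm_rpow_le {r : ℝ} (hr : r < -(finrank ℚ K : ℝ)) :
    ∑' a : 𝓞 K, (nrm K (a : K)) ^ r ≤
      ZLattice.tsumNormRPowBound (mixedEmbedding.integerLattice K) ^ r *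
        ∑' k : ℕ, (k : ℝ) ^ ((finrank ℚ K : ℝ) - 1 + r) := by
  have hr' : r < -(finrank ℤ (mixedEmbedding.integerLattice K) : ℝ) := by
    rw [finrank_integerLattice]; exact hr
  have h1 := ZLattice.tsum_norm_rpow_le (mixedEmbedding.integerLattice K) r hr'
  rw [finrank_integerLattice] at h1
  have h : Summable (fun z : mixedEmbedding.integerLattice K ↦ ‖z‖ ^ r) :=
    ZLattice.summable_norm_rpow (mixedEmbedding.integerLattice K) r hr'
  have h2 := tsum_comp_le_tsum_of_inj h (fun z ↦ Real.rpow_nonneg (norm_nonneg _) _)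
    (toLattice_injective K)
  refine le_trans (le_of_eq ?_) (h2.trans h1)
  refine tsum_congr fun a ↦ ?_
  simp only [Function.comp_apply]
  rw [norm_toLattice]

/-- The key bound `(s - 1) * sumO K s = O(1)`. -/
theorem exists_sumO_bound :
    ∃ B : ℝ, 0 ≤ B ∧ ∀ s : ℝ, 1 < s → s ≤ 2 → (s - 1) * sumO K s ≤ B := by
  have hn := finrank_pos_real (K := K)
  have hn1 := one_le_finrank_real (K := K)
  have hκ := kap_pos (K := K)
  have hκ1 := kap_le_one (K := K)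
  set n : ℝ := (finrank ℚ K : ℝ) with hndef
  set A := ZLattice.tsumNormRPowBound (mixedEmbedding.integerLattice K) with hA
  have hApos : 0 < A := ZLattice.tsumNormRPowBound_pos _
  obtain ⟨Z, hZ0, hZ⟩ := exists_pseries_bound (1 + n)
  set cκ : ℝ := (kap K) ^ (-(2 * n)) with hcκ
  set cA : ℝ := max 1 (A ^ (-(2 * n))) with hcA
  have hcκ0 : 0 ≤ cκ := Real.rpow_nonneg hκ.le _
  have hcA0 : 0 ≤ cA := le_trans zero_le_one (le_max_left _ _)
  refine ⟨cκ * (cA * Z), by positivity, fun s hs1 hs2 ↦ ?_⟩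
  have hr : -(n * s) < -n := by nlinarith
  -- bound of the sum
  have hsumm := summable_fS (K := K) hs1
  have hsumm2 := (summable_nrm_rpow K hr).mul_left ((kap K) ^ (-(n * s)))
  have h1 : sumO K s ≤ ∑' a : 𝓞 K, (kap K) ^ (-(n * s)) * (nrm K (a : K)) ^ (-(n * s)) :=
    hsumm.tsum_le_tsum (fun a ↦ fS_le_rpow (by linarith) _) hsumm2
  rw [tsum_mul_left] at h1
  have h2 := tsum_nrm_rpow_le K hr
  -- constants
  have hκs : (kap K) ^ (-(n * s)) ≤ cκ := by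
    rw [hcκ]
    exact Real.rpow_le_rpow_of_exponent_ge hκ hκ1 (by nlinarith)
  have hAs : A ^ (-(n * s)) ≤ cA := by
    rw [hcA]
    by_cases hA1 : 1 ≤ A
    · exact (Real.rpow_le_one_of_one_le_of_nonpos hA1 (by nlinarith)).trans (le_max_left _ _)
    · rw [not_le] at hA1
      exact (Real.rpow_le_rpow_of_exponent_ge hApos hA1.le (by nlinarith)).trans
        (le_max_right _ _)
  -- the p-series
  set σ : ℝ := 1 + n * (s - 1) with hσ
  have hσ1 : 1 < σ := by rw [hσ]; nlinarith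
  have hσM : σ ≤ 1 + n := by rw [hσ]; nlinarith
  have hps : ∑' k : ℕ, (k : ℝ) ^ (n - 1 + -(n * s)) = ∑' k : ℕ, 1 / (k : ℝ) ^ σ := by
    refine tsum_congr fun k ↦ ?_
    have : n - 1 + -(n * s) = -σ := by rw [hσ]; ring
    rw [this, Real.rpow_neg (Nat.cast_nonneg _), one_div]
  rw [hps] at h2
  have hZs := hZ σ hσ1 hσM
  have hζ0 : 0 ≤ ∑' k : ℕ, 1 / (k : ℝ) ^ σ := tsum_nonneg fun k ↦ by positivity
  have hs0 : 0 ≤ s - 1 := by linarith
  have h3 : (s - 1) * ∑' k : ℕ, 1 / (k : ℝ) ^ σ ≤ Z := by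
    have : (σ - 1) * ∑' k : ℕ, 1 / (k : ℝ) ^ σ = n * ((s - 1) * ∑' k : ℕ, 1 / (k : ℝ) ^ σ) := by
      rw [hσ]; ring
    rw [this] at hZs
    have hnn : 0 ≤ (s - 1) * ∑' k : ℕ, 1 / (k : ℝ) ^ σ := mul_nonneg hs0 hζ0
    nlinarith
  have hκs0 : 0 ≤ (kap K) ^ (-(n * s)) := Real.rpow_nonneg hκ.le _
  have hAs0 : 0 ≤ A ^ (-(n * s)) := Real.rpow_nonneg hApos.le _
  have hT0 : 0 ≤ ∑' a : 𝓞 K, (nrm K (a : K)) ^ (-(n * s)) :=
    tsum_nonneg fun a ↦ Real.rpow_nonneg (nrm_nonneg _) _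
  calc (s - 1) * sumO K s
      ≤ (s - 1) * ((kap K) ^ (-(n * s)) * ∑' a : 𝓞 K, (nrm K (a : K)) ^ (-(n * s))) :=
        mul_le_mul_of_nonneg_left h1 hs0
    _ ≤ (s - 1) * (cκ * (A ^ (-(n * s)) * ∑' k : ℕ, 1 / (k : ℝ) ^ σ)) := by
        refine mul_le_mul_of_nonneg_left ?_ hs0
        exact mul_le_mul hκs h2 hT0 hcκ0
    _ ≤ (s - 1) * (cκ * (cA * ∑' k : ℕ, 1 / (k : ℝ) ^ σ)) := by
        refine mul_le_mul_of_nonneg_left ?_ hs0
        refine mul_le_mul_of_nonneg_left ?_ hcκ0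
        exact mul_le_mul_of_nonneg_right hAs hζ0
    _ = cκ * (cA * ((s - 1) * ∑' k : ℕ, 1 / (k : ℝ) ^ σ)) := by ring
    _ ≤ cκ * (cA * Z) := by
        refine mul_le_mul_of_nonneg_left ?_ hcκ0
        exact mul_le_mul_of_nonneg_left h3 hcA0

end

end Fermat.Agent.S14.N1H150
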