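import Mathlib
import Fermat.Agent.S14.N1H150.Reindex
import Fermat.Agent.S14.N1H150.ZetaBound

/-!
# Partial zeta functions of ideal classes differ by `O(1)` near `s = 1`

Main results, for a number field `K`:

* `hasSum_classZeta`: the partial zeta function of a class as a smoothed lattice sum;
* `summable_classZeta`;
* `exists_bound_classZeta_sub`: `|ζ_C(s) - ζ_{C'}(s)| ≤ B` uniformly for `s ∈ (1, 2]`;
* `exists_bound_classLSeries`: for `ψ : ClassGroup (𝓞 K) → ℂ` with `∑ C, ψ C = 0`,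
  the series `∑_I ψ([I]) N(I)^(-s)` is bounded uniformly for `s ∈ (1, 2]`;
* `exists_bound_classCharLSeries`: the same for a nontrivial character of the class group.
-/

namespace Fermat.Agent.S14.N1H150

noncomputable section

open NumberField NumberField.InfinitePlace NumberField.Units NumberField.mixedEmbedding
  NumberField.Units.dirichletUnitTheorem Module

open scoped Classical nonZeroDivisors

variable (K : Type*) [Field K] [NumberField K]

/-- The partial zeta function of the ideal class `C`, for a real exponent `s`. -/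
def classZeta (C : ClassGroup (𝓞 K)) (s : ℝ) : ℝ :=
  ∑' I : {I : (Ideal (𝓞 K))⁰ // ClassGroup.mk0 I = C},
    ((Ideal.absNorm (I.1 : Ideal (𝓞 K)) : ℝ)) ^ (-s)

variable {K}

lemma classZeta_nonneg (C : ClassGroup (𝓞 K)) (s : ℝ) : 0 ≤ classZeta K C s :=
  tsum_nonneg fun _ ↦ Real.rpow_nonneg (Nat.cast_nonneg _) _

lemma ne_bot_of_mem_nonZeroDivisors (J : (Ideal (𝓞 K))⁰) : (J : Ideal (𝓞 K)) ≠ ⊥ := by
  have := nonZeroDivisors.coe_ne_zero J
  rwa [Ideal.zero_eq_bot] at this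

/-- The map `I ↦ J * I` from the class `C` to principal ideals divisible by `J`. -/
def mulMap (J : (Ideal (𝓞 K))⁰) {C : ClassGroup (𝓞 K)} (hJ : ClassGroup.mk0 J = C⁻¹)
    (I : {I : (Ideal (𝓞 K))⁰ // ClassGroup.mk0 I = C}) : PJ (J : Ideal (𝓞 K)) :=
  ⟨(J : Ideal (𝓞 K)) * (I.1 : Ideal (𝓞 K)), Dvd.intro _ rfl, by
    have h1 : ClassGroup.mk0 (J * I.1) = 1 := by
      rw [map_mul, hJ, I.2, inv_mul_cancel]
    exact (ClassGroup.mk0_eq_one_iff (J * I.1).2).mp h1, by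
    exact ne_bot_of_mem_nonZeroDivisors (J * I.1)⟩

lemma mulMap_val (J : (Ideal (𝓞 K))⁰) {C : ClassGroup (𝓞 K)} (hJ : ClassGroup.mk0 J = C⁻¹)
    (I : {I : (Ideal (𝓞 K))⁰ // ClassGroup.mk0 I = C}) :
    (mulMap J hJ I).1 = (J : Ideal (𝓞 K)) * (I.1 : Ideal (𝓞 K)) := rfl

lemma mulMap_bijective (J : (Ideal (𝓞 K))⁰) {C : ClassGroup (𝓞 K)}
    (hJ : ClassGroup.mk0 J = C⁻¹) : Function.Bijective (mulMap J hJ) := by
  constructor
  · intro I I' h
    have h1 : (J : Ideal (𝓞 K)) * (I.1 : Ideal (𝓞 K)) = (J : Ideal (𝓞 K)) * (I'.1 : Ideal (𝓞 K)) :=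
      congrArg Subtype.val h
    have h2 : (I.1 : Ideal (𝓞 K)) = (I'.1 : Ideal (𝓞 K)) :=
      mul_left_cancel₀ (ne_bot_of_mem_nonZeroDivisors J) h1
    exact Subtype.ext (Subtype.ext h2)
  · rintro ⟨I', hdvd, hprin, hne⟩
    obtain ⟨I, hI⟩ := hdvd
    have hI0 : I ≠ ⊥ := by
      intro h0
      apply hne
      rw [hI, h0, Ideal.mul_bot]
    have hImem : I ∈ (Ideal (𝓞 K))⁰ := mem_nonZeroDivisors_of_ne_zero hI0
    have hcl : ClassGroup.mk0 ⟨I, hImem⟩ = C := by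
      have hI'mem : I' ∈ (Ideal (𝓞 K))⁰ := mem_nonZeroDivisors_of_ne_zero hne
      have h1 : ClassGroup.mk0 ⟨I', hI'mem⟩ = 1 := (ClassGroup.mk0_eq_one_iff hI'mem).mpr hprin
      have h2 : (⟨I', hI'mem⟩ : (Ideal (𝓞 K))⁰) = J * ⟨I, hImem⟩ := Subtype.ext hI
      rw [h2, map_mul, hJ] at h1
      exact (inv_mul_eq_one.mp h1).symm
    exact ⟨⟨⟨I, hImem⟩, hcl⟩, Subtype.ext hI.symm⟩

/-- The partial zeta function of the class `C` as a smoothed lattice sum over an ideal `J`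
in the inverse class. -/
theorem hasSum_classZeta (J : (Ideal (𝓞 K))⁰) {C : ClassGroup (𝓞 K)}
    (hJ : ClassGroup.mk0 J = C⁻¹) {s : ℝ} (hs : 1 < s) :
    HasSum (fun I : {I : (Ideal (𝓞 K))⁰ // ClassGroup.mk0 I = C} ↦
      ((Ideal.absNorm (I.1 : Ideal (𝓞 K)) : ℝ)) ^ (-s))
      ((Ideal.absNorm (J : Ideal (𝓞 K)) : ℝ) ^ s * sumJ (J : Ideal (𝓞 K)) s / torsionOrder K) := by
  have hN : (0 : ℝ) < Ideal.absNorm (J : Ideal (𝓞 K)) :=
    Nat.cast_pos.mpr (Ideal.absNorm_pos_of_nonZeroDivisors J)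
  have hw : (0 : ℝ) < torsionOrder K := Nat.cast_pos.mpr (torsionOrder_pos K)
  have h1 := hasSum_PJ (J : Ideal (𝓞 K)) hs
  have h2 := (Equiv.ofBijective (mulMap J hJ) (mulMap_bijective J hJ)).hasSum_iff.mpr h1
  have h3 := h2.mul_left (((Ideal.absNorm (J : Ideal (𝓞 K)) : ℝ)) ^ s / torsionOrder K)
  have hval : ((Ideal.absNorm (J : Ideal (𝓞 K)) : ℝ)) ^ s / torsionOrder K *
      sumJ (J : Ideal (𝓞 K)) s =
      (Ideal.absNorm (J : Ideal (𝓞 K)) : ℝ) ^ s * sumJ (J : Ideal (𝓞 K)) s / torsionOrder K := by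
    ring
  rw [hval] at h3
  refine h3.congr_fun ?_
  intro I
  simp only [Function.comp_apply, Equiv.ofBijective_apply]
  rw [mulMap_val, map_mul, Nat.cast_mul,
    Real.mul_rpow (Nat.cast_nonneg _) (Nat.cast_nonneg _), Real.rpow_neg hN.le]
  have hNs : (0 : ℝ) < (Ideal.absNorm (J : Ideal (𝓞 K)) : ℝ) ^ s := Real.rpow_pos_of_pos hN _
  field_simp

lemma summable_classZeta (C : ClassGroup (𝓞 K)) {s : ℝ} (hs : 1 < s) :
    Summable (fun I : {I : (Ideal (𝓞 K))⁰ // ClassGroup.mk0 I = C} ↦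
      ((Ideal.absNorm (I.1 : Ideal (𝓞 K)) : ℝ)) ^ (-s)) := by
  obtain ⟨J, hJ⟩ := ClassGroup.mk0_surjective C⁻¹
  exact (hasSum_classZeta J hJ hs).summable

lemma classZeta_eq (J : (Ideal (𝓞 K))⁰) {C : ClassGroup (𝓞 K)}
    (hJ : ClassGroup.mk0 J = C⁻¹) {s : ℝ} (hs : 1 < s) :
    classZeta K C s =
      (Ideal.absNorm (J : Ideal (𝓞 K)) : ℝ) ^ s * sumJ (J : Ideal (𝓞 K)) s / torsionOrder K :=
  (hasSum_classZeta J hJ hs).tsum_eq

/-! ### Real lemmas -/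

lemma rpow_sub_one_le {x t : ℝ} (hx : 1 ≤ x) (ht0 : 0 ≤ t) (ht1 : t ≤ 1) :
    0 ≤ x ^ t - 1 ∧ x ^ t - 1 ≤ t * (x * x) := by
  have hx0 : 0 < x := by linarith
  have h1 : 1 ≤ x ^ t := Real.one_le_rpow hx ht0
  have h2 : x ^ t ≤ x := by
    have := Real.rpow_le_rpow_of_exponent_le hx ht1
    rwa [Real.rpow_one] at this
  refine ⟨by linarith, ?_⟩
  set u := t * Real.log x with hu
  have hlog0 : 0 ≤ Real.log x := Real.log_nonneg hx
  have hu0 : 0 ≤ u := mul_nonneg ht0 hlog0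
  have hexp : x ^ t = Real.exp u := by
    rw [Real.rpow_def_of_pos hx0, hu, mul_comm]
  have h3 : 1 - u ≤ Real.exp (-u) := by
    have := Real.add_one_le_exp (-u)
    linarith
  have h4 : Real.exp u - 1 ≤ u * Real.exp u := by
    have h5 : Real.exp u * Real.exp (-u) = 1 := by rw [← Real.exp_add, add_neg_cancel, Real.exp_zero]
    have h6 : 0 < Real.exp u := Real.exp_pos _
    nlinarith
  have hlogx : Real.log x ≤ x := (Real.log_le_sub_one_of_pos hx0).trans (by linarith)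
  rw [hexp] at h2 ⊢
  have h7 : u * Real.exp u ≤ t * (x * x) := by
    rw [hu, mul_assoc]
    refine mul_le_mul_of_nonneg_left ?_ ht0
    exact mul_le_mul hlogx h2 (Real.exp_pos _).le hx0.le
  linarith

/-! ### The main comparison -/

/-- The error term in `N(J) * sumJ J s = sumO K s + error`. -/
lemma abs_absNorm_mul_sumJ_sub_le (J : (Ideal (𝓞 K))⁰) :
    ∃ B : ℝ, 0 ≤ B ∧ ∀ s : ℝ, 1 < s → s ≤ 2 →
      |(Ideal.absNorm (J : Ideal (𝓞 K)) : ℝ) * sumJ (J : Ideal (𝓞 K)) s - sumO K s| ≤ B := by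
  have hfin : Finite (𝓞 K ⧸ (J : Ideal (𝓞 K))) :=
    Ideal.finiteQuotientOfFreeOfNeBot _ (ne_bot_of_mem_nonZeroDivisors J)
  let _ : Fintype (𝓞 K ⧸ (J : Ideal (𝓞 K))) := Fintype.ofFinite _
  refine ⟨BJ (J : Ideal (𝓞 K)), BJ_nonneg _, fun s hs1 hs2 ↦ ?_⟩
  have h := abs_sumO_sub_le (J : Ideal (𝓞 K)) hs1 hs2
  have hcard : (Fintype.card (𝓞 K ⧸ (J : Ideal (𝓞 K))) : ℝ) =
      (Ideal.absNorm (J : Ideal (𝓞 K)) : ℝ) := by
    rw [Ideal.absNorm_apply, Submodule.cardQuot_apply, Nat.card_eq_fintype_card]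
  rw [hcard] at h
  rwa [abs_sub_comm]

/-- Partial zeta functions of two ideal classes differ by a bounded function on `(1, 2]`. -/
theorem exists_bound_classZeta_sub (C C' : ClassGroup (𝓞 K)) :
    ∃ B : ℝ, 0 ≤ B ∧ ∀ s : ℝ, 1 < s → s ≤ 2 → |classZeta K C s - classZeta K C' s| ≤ B := by
  obtain ⟨J, hJ⟩ := ClassGroup.mk0_surjective C⁻¹
  obtain ⟨J', hJ'⟩ := ClassGroup.mk0_surjective C'⁻¹
  obtain ⟨B₀, hB₀, hO⟩ := exists_sumO_bound K
  obtain ⟨B₁, hB₁, hE⟩ := abs_absNorm_mul_sumJ_sub_le J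
  obtain ⟨B₂, hB₂, hE'⟩ := abs_absNorm_mul_sumJ_sub_le J'
  set N : ℝ := (Ideal.absNorm (J : Ideal (𝓞 K)) : ℝ) with hN
  set N' : ℝ := (Ideal.absNorm (J' : Ideal (𝓞 K)) : ℝ) with hN'
  have hN1 : 1 ≤ N := by
    rw [hN]
    exact_mod_cast Ideal.absNorm_pos_of_nonZeroDivisors J
  have hN'1 : 1 ≤ N' := by
    rw [hN']
    exact_mod_cast Ideal.absNorm_pos_of_nonZeroDivisors J'
  have hw : (1 : ℝ) ≤ torsionOrder K := by
    exact_mod_cast torsionOrder_pos K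
  refine ⟨(N * N + N' * N') * B₀ + N * B₁ + N' * B₂, by positivity, fun s hs1 hs2 ↦ ?_⟩
  rw [classZeta_eq J hJ hs1, classZeta_eq J' hJ' hs1, ← hN, ← hN', ← sub_div, abs_div,
    abs_of_pos (by linarith : (0 : ℝ) < torsionOrder K)]
  refine (div_le_self (abs_nonneg _) hw).trans ?_
  -- notation
  set S := sumJ (J : Ideal (𝓞 K)) s with hS
  set S' := sumJ (J' : Ideal (𝓞 K)) s with hS'
  set O := sumO K s with hOdef
  have hO0 : 0 ≤ O := sumO_nonneg s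
  have hs0 : 0 ≤ s - 1 := by linarith
  have hs1' : s - 1 ≤ 1 := by linarith
  have hNpos : 0 < N := by linarith
  have hN'pos : 0 < N' := by linarith
  have hpow : N ^ s = N ^ (s - 1) * N := by
    rw [← Real.rpow_add_one hNpos.ne']
    congr 1
    ring
  have hpow' : N' ^ s = N' ^ (s - 1) * N' := by
    rw [← Real.rpow_add_one hN'pos.ne']
    congr 1
    ring
  obtain ⟨ha0, ha1⟩ := rpow_sub_one_le hN1 hs0 hs1'
  obtain ⟨hb0, hb1⟩ := rpow_sub_one_le hN'1 hs0 hs1'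
  have hNs : N ^ (s - 1) ≤ N := by
    have := Real.rpow_le_rpow_of_exponent_le hN1 hs1'
    rwa [Real.rpow_one] at this
  have hN's : N' ^ (s - 1) ≤ N' := by
    have := Real.rpow_le_rpow_of_exponent_le hN'1 hs1'
    rwa [Real.rpow_one] at this
  have hNs0 : 0 ≤ N ^ (s - 1) := by linarith
  have hN's0 : 0 ≤ N' ^ (s - 1) := by linarith
  have hEs := hE s hs1 hs2
  have hE's := hE' s hs1 hs2
  rw [← hS, ← hOdef] at hEs
  rw [← hS', ← hOdef] at hE's
  have hOs := hO s hs1 hs2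
  rw [← hOdef] at hOs
  have key : N ^ s * S - N' ^ s * S' =
      (N ^ (s - 1) - N' ^ (s - 1)) * O + N ^ (s - 1) * (N * S - O) -
        N' ^ (s - 1) * (N' * S' - O) := by
    rw [hpow, hpow']
    ring
  rw [key]
  have t1 : |(N ^ (s - 1) - N' ^ (s - 1)) * O| ≤ (N * N + N' * N') * B₀ := by
    rw [abs_mul, abs_of_nonneg hO0]
    have h1 : |N ^ (s - 1) - N' ^ (s - 1)| ≤ (s - 1) * (N * N + N' * N') := by
      rw [abs_le]
      constructor <;> nlinarith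
    calc |N ^ (s - 1) - N' ^ (s - 1)| * O ≤ ((s - 1) * (N * N + N' * N')) * O :=
          mul_le_mul_of_nonneg_right h1 hO0
      _ = (N * N + N' * N') * ((s - 1) * O) := by ring
      _ ≤ (N * N + N' * N') * B₀ := mul_le_mul_of_nonneg_left hOs (by positivity)
  have t2 : |N ^ (s - 1) * (N * S - O)| ≤ N * B₁ := by
    rw [abs_mul, abs_of_nonneg hNs0]
    exact mul_le_mul hNs hEs (abs_nonneg _) hNpos.le
  have t3 : |N' ^ (s - 1) * (N' * S' - O)| ≤ N' * B₂ := by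
    rw [abs_mul, abs_of_nonneg hN's0]
    exact mul_le_mul hN's hE's (abs_nonneg _) hN'pos.le
  calc |(N ^ (s - 1) - N' ^ (s - 1)) * O + N ^ (s - 1) * (N * S - O) -
        N' ^ (s - 1) * (N' * S' - O)|
      ≤ |(N ^ (s - 1) - N' ^ (s - 1)) * O + N ^ (s - 1) * (N * S - O)| +
        |N' ^ (s - 1) * (N' * S' - O)| := abs_sub _ _
    _ ≤ |(N ^ (s - 1) - N' ^ (s - 1)) * O| + |N ^ (s - 1) * (N * S - O)| +
        |N' ^ (s - 1) * (N' * S' - O)| := by
        gcongr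
        exact abs_add_le _ _
    _ ≤ (N * N + N' * N') * B₀ + N * B₁ + N' * B₂ := by linarith

end

end Fermat.Agent.S14.N1H150
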