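import Mathlib
import Fermat.Agent.S14.N1H150.Main

/-!
# Boundedness near `s = 1` of the `L`-series of a class function with mean zero

For `ψ : ClassGroup (𝓞 K) → ℂ` with `∑ C, ψ C = 0` (e.g. a nontrivial character), the series
`∑_I ψ([I]) N(I)^(-s)` over nonzero ideals converges for real `s > 1` and is bounded uniformly
for `s ∈ (1, 2]`.
-/

namespace Fermat.Agent.S14.N1H150

noncomputable section

open NumberField

open scoped Classical nonZeroDivisors

variable {K : Type*} [Field K] [NumberField K]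

/-- The general term of the `L`-series of a class function. -/
def classTerm (ψ : ClassGroup (𝓞 K) → ℂ) (s : ℝ) (I : (Ideal (𝓞 K))⁰) : ℂ :=
  ψ (ClassGroup.mk0 I) * (((Ideal.absNorm (I : Ideal (𝓞 K)) : ℝ) ^ (-s) : ℝ) : ℂ)

/-- The `L`-series of a class function as a finite combination of partial zeta functions. -/
theorem hasSum_classTerm (ψ : ClassGroup (𝓞 K) → ℂ) {s : ℝ} (hs : 1 < s) :
    HasSum (classTerm ψ s) (∑ C : ClassGroup (𝓞 K), ψ C * (classZeta K C s : ℂ)) := by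
  have h1 : ∀ C ∈ (Finset.univ : Finset (ClassGroup (𝓞 K))),
      HasSum (fun I : (Ideal (𝓞 K))⁰ ↦ ({I : (Ideal (𝓞 K))⁰ | ClassGroup.mk0 I = C}).indicator
        (fun I ↦ ψ C * (((Ideal.absNorm (I : Ideal (𝓞 K)) : ℝ) ^ (-s) : ℝ) : ℂ)) I)
        (ψ C * (classZeta K C s : ℂ)) := by
    intro C _
    have h2 : HasSum (fun I : {I : (Ideal (𝓞 K))⁰ // ClassGroup.mk0 I = C} ↦
        ((Ideal.absNorm (I.1 : Ideal (𝓞 K)) : ℝ)) ^ (-s)) (classZeta K C s) :=
      (summable_classZeta C hs).hasSum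
    have h3 := (Complex.hasSum_ofReal.mpr h2).mul_left (ψ C)
    exact hasSum_subtype_iff_indicator.mp h3
  have h4 := hasSum_sum h1
  refine h4.congr_fun ?_
  intro I
  rw [Finset.sum_eq_single (ClassGroup.mk0 I)]
  · rw [Set.indicator_of_mem (by simp)]
    rfl
  · intro C _ hC
    rw [Set.indicator_of_notMem]
    simpa using hC.symm
  · intro h
    exact absurd (Finset.mem_univ _) h

lemma summable_classTerm (ψ : ClassGroup (𝓞 K) → ℂ) {s : ℝ} (hs : 1 < s) :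
    Summable (classTerm ψ s) := (hasSum_classTerm ψ hs).summable

lemma tsum_classTerm (ψ : ClassGroup (𝓞 K) → ℂ) {s : ℝ} (hs : 1 < s) :
    ∑' I, classTerm ψ s I = ∑ C : ClassGroup (𝓞 K), ψ C * (classZeta K C s : ℂ) :=
  (hasSum_classTerm ψ hs).tsum_eq

/-- **Boundedness of class `L`-series near `s = 1`.** If `ψ` has mean zero on the class group,
then `∑_I ψ([I]) N(I)^(-s)` is bounded for `s ∈ (1, 2]`. -/
theorem exists_bound_classLSeries (ψ : ClassGroup (𝓞 K) → ℂ)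
    (hψ : ∑ C : ClassGroup (𝓞 K), ψ C = 0) :
    ∃ B : ℝ, 0 ≤ B ∧ ∀ s : ℝ, 1 < s → s ≤ 2 → ‖∑' I, classTerm ψ s I‖ ≤ B := by
  choose B hB0 hB using fun C : ClassGroup (𝓞 K) ↦
    exists_bound_classZeta_sub C (1 : ClassGroup (𝓞 K))
  refine ⟨∑ C : ClassGroup (𝓞 K), ‖ψ C‖ * B C,
    Finset.sum_nonneg fun C _ ↦ mul_nonneg (norm_nonneg _) (hB0 C), fun s hs1 hs2 ↦ ?_⟩
  rw [tsum_classTerm ψ hs1]
  have h1 : ∑ C : ClassGroup (𝓞 K), ψ C * (classZeta K C s : ℂ) =
      ∑ C : ClassGroup (𝓞 K), ψ C * ((classZeta K C s - classZeta K 1 s : ℝ) : ℂ) := by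
    have h2 : ∑ C : ClassGroup (𝓞 K), ψ C * ((classZeta K C s - classZeta K 1 s : ℝ) : ℂ) =
        ∑ C : ClassGroup (𝓞 K), ψ C * (classZeta K C s : ℂ) -
          (∑ C : ClassGroup (𝓞 K), ψ C) * (classZeta K 1 s : ℂ) := by
      rw [Finset.sum_mul, ← Finset.sum_sub_distrib]
      refine Finset.sum_congr rfl fun C _ ↦ ?_
      push_cast
      ring
    rw [h2, hψ, zero_mul, sub_zero]
  rw [h1]
  refine (norm_sum_le _ _).trans ?_
  refine Finset.sum_le_sum fun C _ ↦ ?_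
  rw [norm_mul, Complex.norm_real, Real.norm_eq_abs]
  exact mul_le_mul_of_nonneg_left (hB C s hs1 hs2) (norm_nonneg _)

/-- The case of a nontrivial character of the class group. -/
theorem exists_bound_classCharLSeries (χ : ClassGroup (𝓞 K) →* ℂˣ) (hχ : χ ≠ 1) :
    ∃ B : ℝ, 0 ≤ B ∧ ∀ s : ℝ, 1 < s → s ≤ 2 →
      ‖∑' I : (Ideal (𝓞 K))⁰, ((χ (ClassGroup.mk0 I) : ℂˣ) : ℂ) *
        (((Ideal.absNorm (I : Ideal (𝓞 K)) : ℝ) ^ (-s) : ℝ) : ℂ)‖ ≤ B := by
  have hsum : ∑ C : ClassGroup (𝓞 K), ((χ C : ℂˣ) : ℂ) = 0 := by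
    have hne : ((Units.coeHom ℂ).comp χ) ≠ 1 := by
      intro h
      apply hχ
      ext C
      have := DFunLike.congr_fun h C
      simpa using this
    exact sum_hom_units_eq_zero ((Units.coeHom ℂ).comp χ) hne
  exact exists_bound_classLSeries (fun C ↦ ((χ C : ℂˣ) : ℂ)) hsum

end

end Fermat.Agent.S14.N1H150
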